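/-
Representations of newforms: push-forward of divisors commutes with semilinear automorphisms
intertwined
along the extension.
-/
import Fermat.Prelude.Def_AlgebraicCurve_Correspondence

set_option autoImplicit false

noncomputable section

open AlgebraicCurve
open scoped Pointwise

namespace Fermat.Agent.NewformRep

variable {K F F' : Type*} [Field K] [Field F] [Field F'] [Algebra K F] [Algebra K F']
  [Algebra F F'] [IsScalarTower K F F'] [Algebra.IsIntegral F F']

/-- Restriction of places commutes with intertwined semilinear automorphisms. -/
theorem restrict_smul {g : SemilinearAut K F} {g' : SemilinearAut K F'}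
    (h : SemilinearAut.IntertwinesAlong (algebraMap F F') g g') (w : Place K F') :
    (g' • w).restrict F = g • w.restrict F := by
  ext1
  ext x
  rw [Place.restrict_toValuationSubring, ValuationSubring.mem_comap,
    SemilinearAut.smul_toValuationSubring, SemilinearAut.smul_toValuationSubring,
    ValuationSubring.mem_pointwise_smul_iff_inv_smul_mem,
    ValuationSubring.mem_pointwise_smul_iff_inv_smul_mem, h.inv x,
    Place.restrict_toValuationSubring, ValuationSubring.mem_comap]

/-- The residue degree is unchanged. -/
theorem inertiaDeg_smul {g : SemilinearAut K F} {g' : SemilinearAut K F'}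
    (h : SemilinearAut.IntertwinesAlong (algebraMap F F') g g') (w : Place K F') :
    (g' • w).inertiaDeg F = w.inertiaDeg F := by
  have hr := restrict_smul h w
  -- the residue field of the restricted place, transported
  let e₀ : (w.restrict F).toValuationSubring ≃+* ((g' • w).restrict F).toValuationSubring :=
    { toFun := fun a => ⟨g • (a : F), by
        rw [hr, SemilinearAut.smul_toValuationSubring]
        exact ValuationSubring.smul_mem_pointwise_smul g _ _ a.2⟩
      invFun := fun a => ⟨g⁻¹ • (a : F), by
        have ha : (a : F) ∈ (g • w.restrict F).toValuationSubring :=
          (congrArg (fun v : Place K F => (a : F) ∈ v.toValuationSubring) hr).mp a.2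
        rw [SemilinearAut.smul_toValuationSubring,
          ValuationSubring.mem_pointwise_smul_iff_inv_smul_mem] at ha
        exact ha⟩
      left_inv := fun a => Subtype.ext (inv_smul_smul g (a : F))
      right_inv := fun a => Subtype.ext (smul_inv_smul g (a : F))
      map_mul' := fun a b => Subtype.ext (smul_mul' g (a : F) (b : F))
      map_add' := fun a b => Subtype.ext (smul_add g (a : F) (b : F)) }
  refine (Algebra.finrank_eq_of_equiv_equiv (IsLocalRing.ResidueField.mapEquiv e₀)
    (SemilinearAut.smulResidueRingEquiv g' w) ?_).symm
  refine RingHom.ext fun r => ?_
  obtain ⟨a, rfl⟩ := IsLocalRing.residue_surjective r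
  show Place.restrictResidueMap F (g' • w)
      (IsLocalRing.ResidueField.mapEquiv e₀ (IsLocalRing.residue _ a)) =
    SemilinearAut.smulResidueRingEquiv g' w
      (Place.restrictResidueMap F w (IsLocalRing.residue _ a))
  rw [SemilinearAut.smulResidueRingEquiv, IsLocalRing.ResidueField.mapEquiv_apply,
    IsLocalRing.ResidueField.mapEquiv_apply, IsLocalRing.ResidueField.map_residue,
    Place.restrictResidueMap_residue, Place.restrictResidueMap_residue,
    IsLocalRing.ResidueField.map_residue]
  refine congrArg _ (Subtype.ext ?_)
  show algebraMap F F' (g • (a : F)) = g' • algebraMap F F' (a : F)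
  exact (h _).symm

/-- Push-forward commutes with intertwined semilinear automorphisms. -/
theorem pushforward_smul {g : SemilinearAut K F} {g' : SemilinearAut K F'}
    (h : SemilinearAut.IntertwinesAlong (algebraMap F F') g g') (D : Divisor K F') :
    Divisor.pushforward F (g' • D) = g • Divisor.pushforward F D := by
  induction D using Finsupp.induction_linear with
  | zero => simp
  | add D E hD hE => simp only [smul_add, map_add, hD, hE]
  | single w m =>
    rw [SemilinearAut.smul_single, Divisor.pushforward_single, Divisor.pushforward_single,
      SemilinearAut.smul_single, restrict_smul h w, inertiaDeg_smul h w]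

end Fermat.Agent.NewformRep

end
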