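/-
Representations of newforms: the two degeneracy push-forwards `J₀(M q) → J₀(M)` and their Galois
equivariance.
-/
import Fermat.Agent.NewformRep.PushSemilinear
import Fermat.Agent.Curve.BasicModular
import Fermat.Prelude.Def_ModularCurve_ArithmeticGalois
import Fermat.Prelude.Thm_ModularCurve_coeffMap_qExpand

set_option autoImplicit false
set_option linter.style.haveILetI false

noncomputable section

open AlgebraicCurve ModularCurve

namespace Fermat.Agent.NewformRep

local notation "Qbar" => AlgebraicClosure ℚ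
local notation "Γℚ" => AlgebraicClosure ℚ ≃ₐ[ℚ] AlgebraicClosure ℚ

section Along

variable {K F F' : Type*} [Field K] [Field F] [Field F'] [Algebra K F] [Algebra K F']

/-- Push-forward on degree-zero divisor classes along an embedding of function fields. -/
def picPushAlong (φ : F →ₐ[K] F') (hφ : φ.toRingHom.IsIntegral) (hfin : FiniteAlong K φ)
    (hN : NormFormulaAlong K φ hfin) : Pic0 K F' →+ Pic0 K F :=
  QuotientAddGroup.map _ _
    (((Divisor.pushforwardAlong φ hφ).domRestrict (Divisor.degZero (K := K) (F := F'))).codRestrict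
      _ fun D => Divisor.pushforwardAlong_mem_degZero φ hφ D.2) (by
    rintro ⟨D, hD0⟩ hD
    simp only [AddSubgroup.mem_addSubgroupOf] at hD ⊢
    exact Divisor.isPrincipal_pushforwardAlong φ hφ hfin hN hD)

theorem picPushAlong_mk (φ : F →ₐ[K] F') (hφ : φ.toRingHom.IsIntegral) (hfin : FiniteAlong K φ)
    (hN : NormFormulaAlong K φ hfin) (D : Divisor.degZero (K := K) (F := F')) :
    picPushAlong φ hφ hfin hN (Pic0.mk D) =
      Pic0.mk ⟨Divisor.pushforwardAlong φ hφ D, Divisor.pushforwardAlong_mem_degZero φ hφ D.2⟩ :=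
  rfl

theorem picPushAlong_smul (φ : F →ₐ[K] F') (hφ : φ.toRingHom.IsIntegral) (hfin : FiniteAlong K φ)
    (hN : NormFormulaAlong K φ hfin) {g : SemilinearAut K F} {g' : SemilinearAut K F'}
    (h : SemilinearAut.IntertwinesAlong φ.toRingHom g g') (x : Pic0 K F') :
    picPushAlong φ hφ hfin hN (g' • x) = g • picPushAlong φ hφ hfin hN x := by
  obtain ⟨D, rfl⟩ := Pic0.mk_surjective x
  rw [SemilinearAut.pic0_smul_mk, picPushAlong_mk, picPushAlong_mk, SemilinearAut.pic0_smul_mk]
  refine congrArg Pic0.mk (Subtype.ext ?_)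
  letI := algebraAlong φ
  haveI := isScalarTower_along φ
  haveI := isIntegral_along φ hφ
  exact pushforward_smul h (D : Divisor K F')

end Along

variable (M q : ℕ) [NeZero M] [NeZero q]

/-- Push-forward along `α : F_M → F_{Mq}`. -/
def pushAlpha : JZero (M * q) →+ JZero M :=
  picPushAlong (heckeAlphaBar Qbar M q) (Curve.isIntegral_toRingHom _) (Curve.finiteAlong _)
    (Curve.normFormulaAlong _ (Curve.finiteAlong _))

/-- Push-forward along `β : F_M → F_{Mq}`. -/
def pushBeta : JZero (M * q) →+ JZero M :=
  picPushAlong (heckeBetaBar Qbar M q) (Curve.isIntegral_toRingHom _) (Curve.finiteAlong _)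
    (Curve.normFormulaAlong _ (Curve.finiteAlong _))

theorem intertwines_heckeAlphaBar (σ : Γℚ) :
    SemilinearAut.IntertwinesAlong (heckeAlphaBar Qbar M q).toRingHom
      (arithmeticGalois (modularFunctionFieldFull M) σ)
      (arithmeticGalois (modularFunctionFieldFull (M * q)) σ) := fun x => by
  refine Subtype.ext ?_
  rw [coe_arithmeticGalois_smul]
  show coeffMap _ (heckeAlphaBar Qbar M q x : LaurentSeries Qbar) =
    (heckeAlphaBar Qbar M q _ : LaurentSeries Qbar)
  rw [coe_heckeAlphaBar, coe_heckeAlphaBar, coe_arithmeticGalois_smul]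

omit [NeZero M] in
theorem intertwines_heckeBetaBar (σ : Γℚ) :
    SemilinearAut.IntertwinesAlong (heckeBetaBar Qbar M q).toRingHom
      (arithmeticGalois (modularFunctionFieldFull M) σ)
      (arithmeticGalois (modularFunctionFieldFull (M * q)) σ) := fun x => by
  refine Subtype.ext ?_
  rw [coe_arithmeticGalois_smul]
  show coeffMap _ (heckeBetaBar Qbar M q x : LaurentSeries Qbar) =
    (heckeBetaBar Qbar M q _ : LaurentSeries Qbar)
  rw [coe_heckeBetaBar, coe_heckeBetaBar, coe_arithmeticGalois_smul, coeffMap_qExpand]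

theorem pushAlpha_galois_smul (σ : Γℚ) (x : JZero (M * q)) :
    pushAlpha M q (σ • x) = σ • pushAlpha M q x := by
  rw [galois_smul_pic0_def, galois_smul_pic0_def]
  exact picPushAlong_smul _ _ _ _ (intertwines_heckeAlphaBar M q σ) x

theorem pushBeta_galois_smul (σ : Γℚ) (x : JZero (M * q)) :
    pushBeta M q (σ • x) = σ • pushBeta M q x := by
  rw [galois_smul_pic0_def, galois_smul_pic0_def]
  exact picPushAlong_smul _ _ _ _ (intertwines_heckeBetaBar M q σ) x

end Fermat.Agent.NewformRep

end
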