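/-
Representations of newforms: reduction of the norm when a valuation extends in exactly two ways
without loss
of degree.
-/
import Mathlib.RingTheory.Norm.Basic
import Mathlib.RingTheory.Valuation.ValuationSubring
import Mathlib.LinearAlgebra.Matrix.SchurComplement
import Mathlib.LinearAlgebra.FiniteDimensional.Lemmas

set_option autoImplicit false

noncomputable section

open scoped Matrix

namespace Fermat.Agent.NewformRep

variable {F' F E' E₁ E₂ : Type*} [Field F'] [Field F] [Field E'] [Field E₁] [Field E₂]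
  [Algebra F' F] [Algebra E' E₁] [Algebra E' E₂]

/-- Two extensions of a valuation exhausting the degree. -/
structure TwoExtensions (V' : ValuationSubring F') (φ' : V' →+* E') (V₁ V₂ : ValuationSubring F)
    (φ₁ : V₁ →+* E₁) (φ₂ : V₂ →+* E₂) : Prop where
  ker : ∀ x : V', ¬ IsUnit x → φ' x = 0
  compat₁ : ∀ x : V', ∃ h : algebraMap F' F x ∈ V₁, φ₁ ⟨_, h⟩ = algebraMap E' E₁ (φ' x)
  compat₂ : ∀ x : V', ∃ h : algebraMap F' F x ∈ V₂, φ₂ ⟨_, h⟩ = algebraMap E' E₂ (φ' x)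
  lift : ∀ (a : E₁) (b : E₂), ∃ (f : F) (h₁ : f ∈ V₁) (h₂ : f ∈ V₂),
    φ₁ ⟨f, h₁⟩ = a ∧ φ₂ ⟨f, h₂⟩ = b
  degree : Module.finrank F' F = Module.finrank E' E₁ + Module.finrank E' E₂

variable {V' : ValuationSubring F'} {φ' : V' →+* E'} {V₁ V₂ : ValuationSubring F}
  {φ₁ : V₁ →+* E₁} {φ₂ : V₂ →+* E₂}

/-- Components of a reduced vector. -/
theorem TwoExtensions.red_sum (H : TwoExtensions V' φ' V₁ V₂ φ₁ φ₂) {κ : Type*} [Fintype κ]
    (e : κ → F) (he₁ : ∀ j, e j ∈ V₁) (he₂ : ∀ j, e j ∈ V₂) (c : κ → V') :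
    ∃ (h₁ : ∑ j, (c j : F') • e j ∈ V₁) (h₂ : ∑ j, (c j : F') • e j ∈ V₂),
      φ₁ ⟨_, h₁⟩ = ∑ j, φ' (c j) • φ₁ ⟨e j, he₁ j⟩ ∧
      φ₂ ⟨_, h₂⟩ = ∑ j, φ' (c j) • φ₂ ⟨e j, he₂ j⟩ := by
  let u₁ : κ → V₁ := fun j => ⟨algebraMap F' F (c j), (H.compat₁ (c j)).1⟩ * ⟨e j, he₁ j⟩
  let u₂ : κ → V₂ := fun j => ⟨algebraMap F' F (c j), (H.compat₂ (c j)).1⟩ * ⟨e j, he₂ j⟩
  have e₁ : ((∑ j, u₁ j : V₁) : F) = ∑ j, (c j : F') • e j := by
    simp only [AddSubmonoidClass.coe_finsetSum, Algebra.smul_def]; rfl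
  have e₂ : ((∑ j, u₂ j : V₂) : F) = ∑ j, (c j : F') • e j := by
    simp only [AddSubmonoidClass.coe_finsetSum, Algebra.smul_def]; rfl
  refine ⟨e₁ ▸ (∑ j, u₁ j).2, e₂ ▸ (∑ j, u₂ j).2, ?_, ?_⟩
  · have h : (⟨∑ j, (c j : F') • e j, e₁ ▸ (∑ j, u₁ j).2⟩ : V₁) = ∑ j, u₁ j :=
      Subtype.ext e₁.symm
    rw [h, map_sum]
    refine Finset.sum_congr rfl fun j _ => ?_
    rw [Algebra.smul_def, ← (H.compat₁ (c j)).2, ← map_mul]
  · have h : (⟨∑ j, (c j : F') • e j, e₂ ▸ (∑ j, u₂ j).2⟩ : V₂) = ∑ j, u₂ j :=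
      Subtype.ext e₂.symm
    rw [h, map_sum]
    refine Finset.sum_congr rfl fun j _ => ?_
    rw [Algebra.smul_def, ← (H.compat₂ (c j)).2, ← map_mul]

variable {κ₁ κ₂ : Type*} [Fintype κ₁] [Fintype κ₂]

/-- Lifts of bases of the two residue fields are orthogonal. -/
theorem TwoExtensions.coeff_mem (H : TwoExtensions V' φ' V₁ V₂ φ₁ φ₂)
    (b₁ : Module.Basis κ₁ E' E₁) (b₂ : Module.Basis κ₂ E' E₂) (e : κ₁ ⊕ κ₂ → F)
    (he₁ : ∀ j, e j ∈ V₁) (he₂ : ∀ j, e j ∈ V₂)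
    (hred₁ : ∀ j, φ₁ ⟨e j, he₁ j⟩ = Sum.elim b₁ (0 : κ₂ → E₁) j)
    (hred₂ : ∀ j, φ₂ ⟨e j, he₂ j⟩ = Sum.elim (0 : κ₁ → E₂) b₂ j)
    (c : κ₁ ⊕ κ₂ → F') (hc₁ : ∑ j, c j • e j ∈ V₁) (hc₂ : ∑ j, c j • e j ∈ V₂)
    (j : κ₁ ⊕ κ₂) : c j ∈ V' := by
  by_contra hj
  obtain ⟨m, -, hm⟩ := Finset.exists_max_image Finset.univ (fun i => V'.valuation (c i))
    ⟨j, Finset.mem_univ j⟩
  have hcm : c m ≠ 0 := fun h => hj (by
    have := hm j (Finset.mem_univ j)
    rw [h, map_zero, le_zero_iff, map_eq_zero] at this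
    rw [this]; exact zero_mem _)
  have hcmV : c m ∉ V' := fun h => hj ((V'.valuation_le_one_iff _).1
    ((hm j (Finset.mem_univ j)).trans ((V'.valuation_le_one_iff _).2 h)))
  have hd : ∀ i, c i * (c m)⁻¹ ∈ V' := fun i => (V'.valuation_le_one_iff _).1 (by
    rw [map_mul, map_inv₀, ← div_eq_mul_inv, div_le_one₀ (zero_lt_iff.2 ((map_ne_zero _).2 hcm))]
    exact hm i (Finset.mem_univ i))
  have hinv : (c m)⁻¹ ∈ V' := (V'.mem_or_inv_mem (c m)).resolve_left hcmV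
  have hu : ¬ IsUnit (⟨(c m)⁻¹, hinv⟩ : V') := fun h => by
    obtain ⟨⟨v, hv⟩, hvm⟩ := isUnit_iff_exists_inv.1 h
    have : (c m)⁻¹ * v = 1 := congrArg Subtype.val hvm
    exact hcmV (by rwa [← inv_inv (c m), inv_eq_of_mul_eq_one_right this])
  obtain ⟨h₁, h₂, r₁, r₂⟩ := H.red_sum e he₁ he₂ fun i => ⟨c i * (c m)⁻¹, hd i⟩
  have hsum : ∑ i, (c i * (c m)⁻¹) • e i = algebraMap F' F (c m)⁻¹ * ∑ i, c i • e i := by
    rw [Finset.mul_sum]
    exact Finset.sum_congr rfl fun i _ => by rw [Algebra.smul_def, Algebra.smul_def, map_mul]; ring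
  have z₁ : φ₁ ⟨_, h₁⟩ = 0 := by
    rw [show (⟨_, h₁⟩ : V₁) = ⟨_, (H.compat₁ ⟨(c m)⁻¹, hinv⟩).1⟩ * ⟨_, hc₁⟩ from Subtype.ext hsum,
      map_mul, (H.compat₁ ⟨(c m)⁻¹, hinv⟩).2, H.ker _ hu, map_zero, zero_mul]
  have z₂ : φ₂ ⟨_, h₂⟩ = 0 := by
    rw [show (⟨_, h₂⟩ : V₂) = ⟨_, (H.compat₂ ⟨(c m)⁻¹, hinv⟩).1⟩ * ⟨_, hc₂⟩ from Subtype.ext hsum,
      map_mul, (H.compat₂ ⟨(c m)⁻¹, hinv⟩).2, H.ker _ hu, map_zero, zero_mul]
  have hone : φ' ⟨c m * (c m)⁻¹, hd m⟩ = 1 := by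
    rw [show (⟨c m * (c m)⁻¹, hd m⟩ : V') = 1 from Subtype.ext (mul_inv_cancel₀ hcm), map_one]
  rcases m with m | m
  · rw [z₁] at r₁
    simp only [hred₁, Fintype.sum_sum_type, Sum.elim_inl, Sum.elim_inr, Pi.zero_apply, smul_zero,
      Finset.sum_const_zero, add_zero] at r₁
    exact one_ne_zero (hone.symm.trans
      (Fintype.linearIndependent_iff.1 b₁.linearIndependent _ r₁.symm m))
  · rw [z₂] at r₂
    simp only [hred₂, Fintype.sum_sum_type, Sum.elim_inl, Sum.elim_inr, Pi.zero_apply, smul_zero,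
      Finset.sum_const_zero, zero_add] at r₂
    exact one_ne_zero (hone.symm.trans
      (Fintype.linearIndependent_iff.1 b₂.linearIndependent _ r₂.symm m))

/-- The norm of a function integral for both extensions reduces to the product of the norms. -/
theorem TwoExtensions.norm_red [Module.Finite E' E₁] [Module.Finite E' E₂]
    (H : TwoExtensions V' φ' V₁ V₂ φ₁ φ₂) {f : F} (hf₁ : f ∈ V₁) (hf₂ : f ∈ V₂) :
    ∃ h : Algebra.norm F' f ∈ V', φ' ⟨_, h⟩ =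
      Algebra.norm E' (φ₁ ⟨f, hf₁⟩) * Algebra.norm E' (φ₂ ⟨f, hf₂⟩) := by
  classical
  let b₁ := Module.finBasis E' E₁
  let b₂ := Module.finBasis E' E₂
  choose e he₁ he₂ hr₁ hr₂ using fun j : Fin (Module.finrank E' E₁) ⊕ Fin (Module.finrank E' E₂) =>
    H.lift (Sum.elim b₁ (0 : Fin (Module.finrank E' E₂) → E₁) j)
      (Sum.elim (0 : Fin (Module.finrank E' E₁) → E₂) b₂ j)
  have li : LinearIndependent F' e := Fintype.linearIndependent_iff.2 fun c hc => by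
    by_contra hne
    push Not at hne
    obtain ⟨j, hj⟩ := hne
    obtain ⟨a, ha⟩ : ∃ a : F', a * c j ∉ V' := by
      obtain ⟨z, hz⟩ : ∃ z, z ∉ V' := by
        by_contra hall
        push Not at hall
        have h1 : φ' ⟨(c j)⁻¹, hall _⟩ * φ' ⟨c j, hall _⟩ = 1 := by
          rw [← map_mul, show (⟨(c j)⁻¹, hall _⟩ : V') * ⟨c j, hall _⟩ = 1 from
            Subtype.ext (inv_mul_cancel₀ hj), map_one]
        have hzero : φ' ⟨c j, hall _⟩ = 0 := by
          obtain ⟨h₁, -, r₁, r₂⟩ := H.red_sum e he₁ he₂ fun i => ⟨c i, hall _⟩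
          rcases j with j | j
          · rw [show (⟨_, h₁⟩ : V₁) = 0 from Subtype.ext hc, map_zero] at r₁
            simp only [hr₁, Fintype.sum_sum_type, Sum.elim_inl, Sum.elim_inr, Pi.zero_apply,
              smul_zero, Finset.sum_const_zero, add_zero] at r₁
            exact Fintype.linearIndependent_iff.1 b₁.linearIndependent _ r₁.symm j
          · obtain ⟨-, h₂, -, r₂'⟩ := H.red_sum e he₁ he₂ fun i => ⟨c i, hall _⟩
            rw [show (⟨_, h₂⟩ : V₂) = 0 from Subtype.ext hc, map_zero] at r₂'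
            simp only [hr₂, Fintype.sum_sum_type, Sum.elim_inl, Sum.elim_inr, Pi.zero_apply,
              smul_zero, Finset.sum_const_zero, zero_add] at r₂'
            exact Fintype.linearIndependent_iff.1 b₂.linearIndependent _ r₂'.symm j
        rw [hzero, mul_zero] at h1
        exact zero_ne_one h1
      exact ⟨z * (c j)⁻¹, by rwa [mul_assoc, inv_mul_cancel₀ hj, mul_one]⟩
    have hz : ∑ i, (a * c i) • e i = 0 := by
      simp only [mul_smul, ← Finset.smul_sum, hc, smul_zero]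
    exact ha (H.coeff_mem b₁ b₂ e he₁ he₂ hr₁ hr₂ _ (hz ▸ zero_mem _) (hz ▸ zero_mem _) j)
  have : Nonempty (Fin (Module.finrank E' E₁) ⊕ Fin (Module.finrank E' E₂)) :=
    ⟨Sum.inl ⟨0, Module.finrank_pos⟩⟩
  let B := basisOfLinearIndependentOfCardEqFinrank li (by simp [H.degree])
  have hB : ∀ j, B j = e j := fun j => by simp [B]
  have hmem : ∀ i j, B.repr (f * B j) i ∈ V' := fun i j => by
    refine H.coeff_mem b₁ b₂ e he₁ he₂ hr₁ hr₂ (fun i => B.repr (f * B j) i) ?_ ?_ i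
    · have hs : ∑ i, B.repr (f * B j) i • e i = f * e j := by
        rw [← hB j]; simp only [← hB]; exact B.sum_repr _
      rw [hs]; exact mul_mem hf₁ (he₁ j)
    · have hs : ∑ i, B.repr (f * B j) i • e i = f * e j := by
        rw [← hB j]; simp only [← hB]; exact B.sum_repr _
      rw [hs]; exact mul_mem hf₂ (he₂ j)
  let M : Matrix (Fin (Module.finrank E' E₁) ⊕ Fin (Module.finrank E' E₂))
      (Fin (Module.finrank E' E₁) ⊕ Fin (Module.finrank E' E₂)) V' := Matrix.of fun i j => ⟨B.repr (f * B j) i, hmem i j⟩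
  have hM : M.map V'.subtype = Algebra.leftMulMatrix B f := by
    ext i j
    rw [Algebra.leftMulMatrix_eq_repr_mul]
    rfl
  have hN : Algebra.norm F' f = V'.subtype M.det := by
    rw [RingHom.map_det, RingHom.mapMatrix_apply, hM, Algebra.norm_eq_matrix_det B]
  refine ⟨hN ▸ M.det.2, ?_⟩
  rw [show (⟨_, _⟩ : V') = M.det from Subtype.ext hN, RingHom.map_det,
    RingHom.mapMatrix_apply]
  have hcol : ∀ j, (φ₁ ⟨f, hf₁⟩ * Sum.elim b₁ (0 : Fin (Module.finrank E' E₂) → E₁) j =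
        ∑ i, φ' (M i j) • Sum.elim b₁ (0 : Fin (Module.finrank E' E₂) → E₁) i) ∧
      (φ₂ ⟨f, hf₂⟩ * Sum.elim (0 : Fin (Module.finrank E' E₁) → E₂) b₂ j =
        ∑ i, φ' (M i j) • Sum.elim (0 : Fin (Module.finrank E' E₁) → E₂) b₂ i) := fun j => by
    obtain ⟨h₁, h₂, r₁, r₂⟩ := H.red_sum e he₁ he₂ fun i => M i j
    have hs : ∑ i, ((M i j : V') : F') • e i = f * e j := by
      simp only [← hB]
      exact B.sum_repr _
    rw [show (⟨_, h₁⟩ : V₁) = ⟨f, hf₁⟩ * ⟨e j, he₁ j⟩ from Subtype.ext hs, map_mul] at r₁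
    rw [show (⟨_, h₂⟩ : V₂) = ⟨f, hf₂⟩ * ⟨e j, he₂ j⟩ from Subtype.ext hs, map_mul] at r₂
    simp only [hr₁] at r₁
    simp only [hr₂] at r₂
    exact ⟨r₁, r₂⟩
  have hblock : M.map φ' = Matrix.fromBlocks (Algebra.leftMulMatrix b₁ (φ₁ ⟨f, hf₁⟩)) 0 0
      (Algebra.leftMulMatrix b₂ (φ₂ ⟨f, hf₂⟩)) := by
    ext (i | i) (j | j)
    · have h := congrArg (fun x => b₁.repr x i) (hcol (Sum.inl j)).1
      simp only [Fintype.sum_sum_type, Sum.elim_inl, Sum.elim_inr, Pi.zero_apply, smul_zero,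
        Finset.sum_const_zero, add_zero, b₁.repr_sum_self] at h
      simpa [Algebra.leftMulMatrix_eq_repr_mul] using h.symm
    · have h := congrArg (fun x => b₁.repr x i) (hcol (Sum.inr j)).1
      simp only [Fintype.sum_sum_type, Sum.elim_inl, Sum.elim_inr, Pi.zero_apply, smul_zero,
        Finset.sum_const_zero, add_zero, mul_zero, map_zero, b₁.repr_sum_self] at h
      simpa using h.symm
    · have h := congrArg (fun x => b₂.repr x i) (hcol (Sum.inl j)).2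
      simp only [Fintype.sum_sum_type, Sum.elim_inl, Sum.elim_inr, Pi.zero_apply, smul_zero,
        Finset.sum_const_zero, zero_add, mul_zero, map_zero, b₂.repr_sum_self] at h
      simpa using h.symm
    · have h := congrArg (fun x => b₂.repr x i) (hcol (Sum.inr j)).2
      simp only [Fintype.sum_sum_type, Sum.elim_inl, Sum.elim_inr, Pi.zero_apply, smul_zero,
        Finset.sum_const_zero, zero_add, b₂.repr_sum_self] at h
      simpa [Algebra.leftMulMatrix_eq_repr_mul] using h.symm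
  rw [hblock, Matrix.det_fromBlocks_zero₂₁, ← Algebra.norm_eq_matrix_det,
    ← Algebra.norm_eq_matrix_det]

end Fermat.Agent.NewformRep

end
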