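/-
Representations of newforms: Frobenius on the torsion killed by two degeneracy push-forwards,
abstractly.

The special fibre has two components with the same residual function field `E`; the two embeddings
`α β : F' → F` reduce to (identity, `Φ`) and (`Φ`, identity), `Φ` being the relative Frobenius of
`E`, `c` the arithmetic one. Classes killed by both push-forwards have component data fixed by
`c ^ 2`, so `σ ^ 2 x - x` is good, and `σ ^ 2` acts on gluing data by `q ^ 2`.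
-/
import Fermat.Agent.NewformRep.Degeneracy
import Fermat.Agent.NewformRep.GeometryNorm
import Fermat.Agent.Bad.Gluing
import Mathlib.FieldTheory.Perfect
import Mathlib.FieldTheory.IsAlgClosed.Basic

set_option autoImplicit false
set_option linter.style.haveILetI false

noncomputable section

open AlgebraicCurve Fermat.Agent.Bad Fermat.Agent.Bad.MultiReduction Fermat.Agent.Curve

namespace Fermat.Agent.NewformRep

/-- In characteristic `q`, in an extension of degree `q`, the norm of `g` with `g ^ q = a` is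
`a`. -/
theorem norm_eq_of_algebraMap_eq_pow {E E₂ : Type*} [Field E] [Field E₂] [Algebra E E₂]
    (q : ℕ) [Fact q.Prime] [CharP E q] (hd : Module.finrank E E₂ = q) {g : E₂} {a : E}
    (h : algebraMap E E₂ a = g ^ q) : Algebra.norm E g = a := by
  have h2 : (Algebra.norm E g) ^ q = a ^ q := by
    rw [← map_pow, ← h, Algebra.norm_algebraMap, hd]
  exact frobenius_inj E q (by simpa [frobenius_def] using h2)

theorem apply_apply_of_add_eq_zero {G : Type*} [AddGroup G] (f : G →+ G) {a b : G}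
    (h₁ : a + f b = 0) (h₂ : b + f a = 0) : f (f a) = a := by
  rw [eq_neg_of_add_eq_zero_left h₂, map_neg] at h₁
  exact (sub_eq_zero.1 (by rwa [← sub_eq_add_neg] at h₁)).symm

/-- The two Frobenius maps of a function field in characteristic `q`. -/
structure FrobeniusData (k E : Type*) [Field k] [Field E] [Algebra k E] (q : ℕ) where
  /-- the arithmetic Frobenius -/
  c : E ≃+* E
  /-- the relative Frobenius -/
  Φ : E →ₐ[k] E
  Φ_c : ∀ e, Φ (c e) = e ^ q
  finrank_Φ : finrankAlong k Φ = q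

namespace FrobeniusData

variable {k E : Type*} [Field k] [Field E] [Algebra k E] {q : ℕ} (D : FrobeniusData k E q)

theorem c_algebraMap (a : k) : D.c (algebraMap k E a) = algebraMap k E (a ^ q) :=
  RingHom.injective D.Φ.toRingHom
    (show D.Φ _ = D.Φ _ by rw [D.Φ_c, D.Φ.commutes, map_pow])

/-- The arithmetic Frobenius on functions modulo constants and `n`-th powers. -/
def compMap (n : ℕ) : Additive (CompGroup k E n) →+ Additive (CompGroup k E n) :=
  MonoidHom.toAdditive <| QuotientGroup.map _ _ (Units.map (D.c : E →* E)) <| by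
    refine sup_le ?_ ?_
    · rintro _ ⟨a, rfl⟩
      refine Subgroup.mem_sup_left ⟨a ^ q, Units.ext ?_⟩
      simp [D.c_algebraMap]
    · rintro _ ⟨u, rfl⟩
      exact Subgroup.mem_sup_right ⟨Units.map (D.c : E →* E) u, (map_pow _ _ _).symm⟩

theorem compMap_mk (n : ℕ) (u : Eˣ) :
    D.compMap n (Additive.ofMul (QuotientGroup.mk u)) =
      Additive.ofMul (QuotientGroup.mk (Units.map (D.c : E →* E) u)) := rfl

end FrobeniusData

section

universe uK uF uι uk uE uG

variable {K : Type uK} [Field K] {A : ValuationSubring K} {F : Type uF} [Field F] [Algebra K F]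
  {ι : Type uι} [Fintype ι] {k : Type uk} [Field k] {E : Type uE} [Field E] [Algebra k E]
  {F' : Type uG} [Field F'] [Algebra K F']
  (R : MultiReduction A F k (fun _ : ι => E))

/-- A reduction of the base `F'` into `E`. -/
structure BaseReduction (V' : ValuationSubring F') (φ' : V' →+* E) : Prop where
  ker : ∀ x : V', ¬ IsUnit x → φ' x = 0
  scale : ∀ f : F', f ≠ 0 → ∃ c : K, ∃ h : c • f ∈ V', φ' ⟨c • f, h⟩ ≠ 0
  mem_iff : ∀ a : K, algebraMap K F' a ∈ V' ↔ a ∈ A
  red_algebraMap : ∀ (a : A) (h : algebraMap K F' (a : K) ∈ V'),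
    φ' ⟨_, h⟩ = algebraMap k E (R.π a)

/-- An embedding reducing to the identity on the component `i` and to `Φ` on `j`. -/
structure DegeneracyReduction {q : ℕ} (D : FrobeniusData k E q) (α : F' →ₐ[K] F)
    (V' : ValuationSubring F') (φ' : V' →+* E) (i j : ι) : Prop where
  fst : ∀ x : V', ∃ h : α x ∈ R.V i, R.φ i ⟨α x, h⟩ = φ' x
  snd : ∀ x : V', ∃ h : α x ∈ R.V j, R.φ j ⟨α x, h⟩ = D.Φ (φ' x)
  degree : finrankAlong K α = q + 1

variable {R} {q : ℕ} [Fact q.Prime] [CharP k q] {D : FrobeniusData k E q} {α : F' →ₐ[K] F}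
  {V' : ValuationSubring F'} {φ' : V' →+* E} {i j : ι}

theorem DegeneracyReduction.norm_red (hd : DegeneracyReduction R D α V' φ' i j)
    (hb : BaseReduction R V' φ') (hij : i ≠ j) {f : F} (hi : f ∈ R.V i) (hj : f ∈ R.V j) :
    letI := algebraAlong α
    ∃ h : Algebra.norm F' f ∈ V',
      φ' ⟨_, h⟩ = R.φ i ⟨f, hi⟩ * D.c (R.φ j ⟨f, hj⟩) := by
  classical
  letI := algebraAlong α
  haveI : CharP E q := charP_of_injective_algebraMap (algebraMap k E).injective q
  have hq : 0 < q := (Fact.out : q.Prime).pos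
  have hfinΦ : @Module.finrank E E _ _ (algebraAlong D.Φ).toModule = q := D.finrank_Φ
  have hfin : @Module.Finite E E _ _ (algebraAlong D.Φ).toModule :=
    @Module.finite_of_finrank_pos E E _ _ (algebraAlong D.Φ).toModule _ _ (lt_of_lt_of_eq hq hfinΦ.symm)
  have H : @TwoExtensions F' F E E E _ _ _ _ _ (algebraAlong α) (Algebra.id E)
      (algebraAlong D.Φ) V' φ' (R.V i) (R.V j) (R.φ i) (R.φ j) :=
    @TwoExtensions.mk F' F E E E _ _ _ _ _ (algebraAlong α) (Algebra.id E)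
      (algebraAlong D.Φ) V' φ' (R.V i) (R.V j) (R.φ i) (R.φ j) hb.ker (fun x => hd.fst x)
      (fun x => hd.snd x)
      (fun a b => by
        obtain ⟨g, hg, hh⟩ := R.exists_lift (Function.update (fun _ => b) i a)
        refine ⟨g, hg i, hg j, ?_, ?_⟩
        · rw [hh i, Function.update_self]
        · rw [hh j, Function.update_of_ne hij.symm])
      (by
        rw [hfinΦ, Module.finrank_self, add_comm]
        exact hd.degree)
  obtain ⟨h, e⟩ := @TwoExtensions.norm_red F' F E E E _ _ _ _ _ (algebraAlong α) (Algebra.id E)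
      (algebraAlong D.Φ) V' φ' (R.V i) (R.V j) (R.φ i) (R.φ j) (Module.Finite.self E) hfin H
      f hi hj
  refine ⟨h, e.trans ?_⟩
  rw [@norm_eq_of_algebraMap_eq_pow E E _ _ (algebraAlong D.Φ) q _ _ hfinΦ
    (R.φ j ⟨f, hj⟩) (D.c (R.φ j ⟨f, hj⟩)) (D.Φ_c _), Algebra.norm_self, MonoidHom.id_apply]

variable [IsAlgClosed K] [IsFunctionFieldOne K F] [IsFunctionFieldOne k E]

omit [Fact q.Prime] [CharP k q] [IsAlgClosed K] [IsFunctionFieldOne K F]
  [IsFunctionFieldOne k E] in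
theorem π_eq_zero_of_not_isUnit (R : MultiReduction A F k (fun _ : ι => E)) {a : A}
    (ha : ¬ IsUnit a) : R.π a = 0 := by
  have h := IsLocalRing.eq_maximalIdeal (RingHom.ker_isMaximal_of_surjective R.π R.π_surjective)
  rw [← RingHom.mem_ker, h]
  exact (IsLocalRing.mem_maximalIdeal a).2 ha

omit [Fact q.Prime] [CharP k q] [IsAlgClosed K] [IsFunctionFieldOne K F]
  [IsFunctionFieldOne k E] in
/-- A function which is `1` on the component `i` and `a` times a function equal to `1` on `j`. -/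
theorem exists_approx (R : MultiReduction A F k (fun _ : ι => E)) (hA : RankLeOne A) {i j : ι}
    (hij : i ≠ j) {a : A} (ha0 : a ≠ 0) (ha : ¬ IsUnit a) :
    ∃ (w : F) (hi : w ∈ R.V i) (hj : (a : K)⁻¹ • w ∈ R.V j),
      R.φ i ⟨w, hi⟩ = 1 ∧ R.φ j ⟨_, hj⟩ = 1 := by
  classical
  have ha0' : (a : K) ≠ 0 := fun h => ha0 (Subtype.ext h)
  obtain ⟨e, he, hee⟩ := R.exists_lift (Function.update (fun _ => (0 : E)) i 1)
  have h1 : R.φ i ⟨e, he i⟩ = 1 := by rw [hee i, Function.update_self]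
  have h0 : R.φ j ⟨e, he j⟩ = 0 := by rw [hee j, Function.update_of_ne hij.symm]
  have he0 : e ≠ 0 := fun h => by
    subst h
    exact one_ne_zero (h1.symm.trans (map_zero (R.φ i)))
  obtain ⟨c, hc, hcne⟩ := R.exists_scale j e he0
  have hcA : c ∉ A := fun h => hcne (by
    have h2 : (⟨c • e, hc⟩ : R.V j) =
        ⟨algebraMap K F c, (R.mem_V_iff j c).2 h⟩ * ⟨e, he j⟩ :=
      Subtype.ext (Algebra.smul_def c e)
    rw [h2, map_mul, h0, mul_zero])
  have hc0 : c ≠ 0 := fun h => hcA (h ▸ zero_mem A)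
  have hd : c⁻¹ ∈ A := (A.mem_or_inv_mem c).resolve_left hcA
  have hdu : ¬ IsUnit (⟨c⁻¹, hd⟩ : A) := fun h => by
    obtain ⟨⟨v, hv⟩, hvm⟩ := isUnit_iff_exists_inv.1 h
    have h3 : c⁻¹ * v = 1 := congrArg Subtype.val hvm
    exact hcA (by rwa [← inv_inv c, inv_eq_of_mul_eq_one_right h3])
  obtain ⟨m, b, hb⟩ := hA ⟨c⁻¹, hd⟩ a ((IsLocalRing.mem_maximalIdeal _).2 hdu) ha0
  have hb' : c⁻¹ ^ m = (a : K) * (b : K) := by
    simpa using congrArg Subtype.val hb
  let am : R.V i := ⟨algebraMap K F (a : K), (R.mem_V_iff i _).2 a.2⟩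
  refine ⟨e ^ (m + 1) + algebraMap K F (a : K), ((⟨e, he i⟩ : R.V i) ^ (m + 1) + am).2, ?_⟩
  let v : R.V j := ⟨algebraMap K F ((b * (⟨c⁻¹, hd⟩ : A) : A) : K), (R.mem_V_iff j _).2
    (b * (⟨c⁻¹, hd⟩ : A) : A).2⟩
  have key : (a : K)⁻¹ • (e ^ (m + 1) + algebraMap K F (a : K)) =
      ((v * (⟨c • e, hc⟩ : R.V j) ^ (m + 1) + 1 : R.V j) : F) := by
    show _ = algebraMap K F ((b : K) * c⁻¹) * (c • e) ^ (m + 1) + 1
    rw [Algebra.smul_def, Algebra.smul_def, mul_add, ← map_mul _ _ (a : K),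
      inv_mul_cancel₀ ha0', map_one, mul_pow, ← mul_assoc, ← map_pow, ← map_mul]
    congr 3
    rw [show (b : K) = (a : K)⁻¹ * c⁻¹ ^ m by
      rw [hb', ← mul_assoc, inv_mul_cancel₀ ha0', one_mul], inv_pow, pow_succ]
    field_simp
  refine ⟨key ▸ (v * (⟨c • e, hc⟩ : R.V j) ^ (m + 1) + 1 : R.V j).2, ?_, ?_⟩
  · rw [show (⟨e ^ (m + 1) + algebraMap K F (a : K), _⟩ : R.V i) =
      (⟨e, he i⟩ : R.V i) ^ (m + 1) + am from rfl, map_add, map_pow, h1, one_pow,
      R.φ_algebraMap, π_eq_zero_of_not_isUnit R ha, map_zero, add_zero]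
  · rw [show (⟨_, _⟩ : R.V j) = v * (⟨c • e, hc⟩ : R.V j) ^ (m + 1) + 1 from Subtype.ext key,
      map_add, map_mul, map_one, R.φ_algebraMap, map_mul,
      π_eq_zero_of_not_isUnit R hdu, mul_zero, map_zero, zero_mul, zero_add]

omit [Fact q.Prime] [CharP k q] [IsFunctionFieldOne k E] in
/-- A representative of a torsion class with non-zero reductions on both components. -/
theorem exists_uniform_aux (R : MultiReduction A F k (fun _ : ι => E)) (hA : RankLeOne A)
    {i j : ι} (hij : i ≠ j) {n : ℕ} (hn : 0 < n) (D : Divisor.degZero (K := K) (F := F)) {f : F}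
    (hf : f ≠ 0) (hD : ∀ v : Place K F, (n : ℤ) * (D : Divisor K F) v = v.ord f)
    {c r : K} (hr : r ∈ A) (hr0 : r ≠ 0) (hi : c • f ∈ R.V i)
    (hi' : R.φ i ⟨_, hi⟩ ≠ 0) (hj : r • c • f ∈ R.V j) (hj' : R.φ j ⟨_, hj⟩ ≠ 0) :
    ∃ (D' : Divisor.degZero (K := K) (F := F)) (f' : F) (hi : f' ∈ R.V i) (hj : f' ∈ R.V j),
      Pic0.mk D' = Pic0.mk D ∧ f' ≠ 0 ∧
      (∀ v : Place K F, (n : ℤ) * (D' : Divisor K F) v = v.ord f') ∧
      R.φ i ⟨f', hi⟩ ≠ 0 ∧ R.φ j ⟨f', hj⟩ ≠ 0 := by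
  have hord : ∀ v : Place K F, (n : ℤ) * (D : Divisor K F) v = v.ord (c • f) := fun v => by
    have hc : c ≠ 0 := fun h => hi' (by subst h; simp [zero_smul]; exact map_zero _)
    rw [Algebra.smul_def, v.ord_mul (by simpa using hc) hf, ord_algebraMap, zero_add, hD v]
  have hcf : c • f ≠ 0 := fun h => hi' (by
    rw [show (⟨_, hi⟩ : R.V i) = 0 from Subtype.ext h, map_zero])
  by_cases hu : IsUnit (⟨r, hr⟩ : A)
  · obtain ⟨⟨r', hr'⟩, hrr⟩ := isUnit_iff_exists_inv.1 hu
    have hrr' : r * r' = 1 := congrArg Subtype.val hrr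
    have e : c • f = algebraMap K F r' * (r • c • f) := by
      rw [← Algebra.smul_def, smul_smul r' r, mul_comm r' r, hrr', one_smul]
    have hj2 : c • f ∈ R.V j := e ▸ mul_mem ((R.mem_V_iff j r').2 hr') hj
    refine ⟨D, c • f, hi, hj2, rfl, hcf, hord, hi', fun h => hj' ?_⟩
    rw [show (⟨_, hj⟩ : R.V j) = ⟨algebraMap K F r, (R.mem_V_iff j r).2 hr⟩ * ⟨_, hj2⟩ from
      Subtype.ext (Algebra.smul_def r _), map_mul, h, mul_zero]
  · obtain ⟨s, hs⟩ := IsAlgClosed.exists_pow_nat_eq r hn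
    have hs0 : s ≠ 0 := fun h => hr0 (by rw [← hs, h, zero_pow hn.ne'])
    have hsA : s ∈ A := by
      by_contra h
      have hs' := (A.mem_or_inv_mem s).resolve_left h
      refine hu (IsUnit.of_mul_eq_one ((⟨s⁻¹, hs'⟩ : A) ^ n) (Subtype.ext ?_))
      show r * s⁻¹ ^ n = 1
      rw [← hs, ← mul_pow, mul_inv_cancel₀ hs0, one_pow]
    have hsu : ¬ IsUnit (⟨s, hsA⟩ : A) := fun h => hu (by
      rw [show (⟨r, hr⟩ : A) = ⟨s, hsA⟩ ^ n from Subtype.ext hs.symm]
      exact h.pow n)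
    obtain ⟨w, hwi, hwj, e1, e2⟩ :=
      exists_approx R hA hij (a := ⟨s, hsA⟩) (fun h => hs0 (congrArg Subtype.val h)) hsu
    have hw : w ≠ 0 := fun h => by
      subst h
      exact one_ne_zero (e1.symm.trans (map_zero (R.φ i)))
    obtain ⟨W, hW, hW0⟩ := HasPrincipalDivisors.exists_divisor (K := K) w hw
    have key : c • f * w ^ n =
        (((⟨_, hj⟩ : R.V j) * ⟨_, hwj⟩ ^ n : R.V j) : F) := by
      show c • f * w ^ n = r • c • f * (s⁻¹ • w) ^ n
      rw [← hs, Algebra.smul_def (s ^ n), Algebra.smul_def s⁻¹, mul_pow, map_pow,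
        mul_mul_mul_comm, ← mul_pow, ← map_mul, mul_inv_cancel₀ hs0, map_one, one_pow, one_mul]
    refine ⟨D + ⟨W, hW0⟩, c • f * w ^ n, ((⟨_, hi⟩ : R.V i) * ⟨w, hwi⟩ ^ n).2,
      key ▸ ((⟨_, hj⟩ : R.V j) * ⟨_, hwj⟩ ^ n).2, ?_, mul_ne_zero hcf (pow_ne_zero _ hw),
      fun v => ?_, ?_, ?_⟩
    · rw [Pic0.mk_add]
      refine add_eq_left.2 ((QuotientAddGroup.eq_zero_iff _).2 ?_)
      exact AddSubgroup.mem_addSubgroupOf.2 ⟨w, hw, hW⟩
    · rw [v.ord_mul hcf (pow_ne_zero _ hw), ord_pow, ← hord v, AddSubgroup.coe_add,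
        Finsupp.add_apply, mul_add, hW v]
    · rw [show (⟨c • f * w ^ n, _⟩ : R.V i) = (⟨_, hi⟩ : R.V i) * ⟨w, hwi⟩ ^ n from rfl,
        map_mul, map_pow, e1, one_pow, mul_one]
      exact hi'
    · rw [show (⟨_, _⟩ : R.V j) = (⟨_, hj⟩ : R.V j) * ⟨_, hwj⟩ ^ n from Subtype.ext key,
        map_mul, map_pow, e2, one_pow, mul_one]
      exact hj'

omit [Fact q.Prime] [CharP k q] [IsFunctionFieldOne k E] in
/-- A torsion class has a representative with non-zero reductions on both components. -/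
theorem exists_uniform (R : MultiReduction A F k (fun _ : ι => E)) (hA : RankLeOne A) {i j : ι}
    (hij : i ≠ j) {n : ℕ} (hn : 0 < n) {x : Pic0 K F} (hx : x ∈ Pic0.torsion K F n) :
    ∃ (D : Divisor.degZero (K := K) (F := F)) (f : F) (hi : f ∈ R.V i) (hj : f ∈ R.V j),
      Pic0.mk D = x ∧ f ≠ 0 ∧ (∀ v : Place K F, (n : ℤ) * (D : Divisor K F) v = v.ord f) ∧
      R.φ i ⟨f, hi⟩ ≠ 0 ∧ R.φ j ⟨f, hj⟩ ≠ 0 := by
  obtain ⟨D, rfl⟩ := Pic0.mk_surjective x
  have h0 : Pic0.mk ((n : ℤ) • D) = 0 := by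
    rw [Pic0.mem_torsion] at hx
    exact hx
  obtain ⟨f, hf, hfD⟩ := AddSubgroup.mem_addSubgroupOf.1 ((QuotientAddGroup.eq_zero_iff _).1 h0)
  have hD : ∀ v : Place K F, (n : ℤ) * (D : Divisor K F) v = v.ord f := fun v => by
    rw [← hfD v]; simp
  obtain ⟨ci, hi, hi'⟩ := R.exists_scale i f hf
  obtain ⟨cj, hj, hj'⟩ := R.exists_scale j f hf
  have hci : ci ≠ 0 := fun h => hi' (by
    rw [show (⟨_, hi⟩ : R.V i) = 0 from Subtype.ext (by simp [h]), map_zero])
  have hcj : cj ≠ 0 := fun h => hj' (by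
    rw [show (⟨_, hj⟩ : R.V j) = 0 from Subtype.ext (by simp [h]), map_zero])
  rcases A.mem_or_inv_mem (cj / ci) with h | h
  · have e : cj • f = (cj / ci) • ci • f := by rw [smul_smul, div_mul_cancel₀ _ hci]
    obtain ⟨D', f', a, b, p⟩ := exists_uniform_aux R hA hij hn D hf hD h
      (div_ne_zero hcj hci) hi hi' (e ▸ hj) (by
        rw [show (⟨_, e ▸ hj⟩ : R.V j) = ⟨cj • f, hj⟩ from Subtype.ext e.symm]; exact hj')
    exact ⟨D', f', a, b, p⟩
  · rw [inv_div] at h
    have e : ci • f = (ci / cj) • cj • f := by rw [smul_smul, div_mul_cancel₀ _ hcj]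
    obtain ⟨D', f', a, b, p1, p2, p3, p4, p5⟩ := exists_uniform_aux R hA hij.symm hn D hf hD h
      (div_ne_zero hci hcj) hj hj' (e ▸ hi) (by
        rw [show (⟨_, e ▸ hi⟩ : R.V i) = ⟨ci • f, hi⟩ from Subtype.ext e.symm]; exact hi')
    exact ⟨D', f', b, a, p1, p2, p3, p5, p4⟩

omit [IsFunctionFieldOne k E] in
/-- A function whose orders agree everywhere with those of `h ^ n` is a constant times it. -/
theorem exists_eq_const_mul [IsFunctionFieldOne K F'] {u h : F'} (hu : u ≠ 0) (hh : h ≠ 0)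
    (n : ℕ) (H : ∀ v : Place K F', v.ord u = (n : ℤ) * v.ord h) :
    ∃ a : K, u = algebraMap K F' a * h ^ n := by
  have hhn : h ^ n ≠ 0 := pow_ne_zero _ hh
  have halg : IsAlgebraic K (u / h ^ n) := isAlgebraic_of_forall_ord_nonneg fun v => by
    rw [div_eq_mul_inv, v.ord_mul hu (inv_ne_zero hhn), v.ord_inv, ord_pow, H v]
    omega
  obtain ⟨a, ha⟩ : u / h ^ n ∈ (algebraMap K F').range :=
    minpoly.mem_range_of_degree_eq_one K _
      (IsAlgClosed.degree_eq_one_of_irreducible K (minpoly.irreducible halg.isIntegral))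
  exact ⟨a, by rw [ha, div_mul_cancel₀ _ hhn]⟩

/-- A class killed by push-forward: its component data `m i`, `m j` satisfy `m i + c (m j) = 0`. -/
theorem DegeneracyReduction.componentMap_add (hd : DegeneracyReduction R D α V' φ' i j)
    (hb : BaseReduction R V' φ') (hij : i ≠ j) (hA : RankLeOne A) [IsFunctionFieldOne K F']
    (hα : α.toRingHom.IsIntegral) (hfin : FiniteAlong K α) (hN : NormFormulaAlong K α hfin)
    {n : ℕ} (hn : (n : k) ≠ 0) (x : Pic0.torsion K F n)
    (hx : picPushAlong α hα hfin hN (x : Pic0 K F) = 0) :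
    componentMap R hn i x + D.compMap n (componentMap R hn j x) = 0 := by
  letI := algebraAlong α
  haveI := isScalarTower_along α
  haveI : Module.Finite F' F := hfin
  have hn0 : n ≠ 0 := fun h => hn (by rw [h, Nat.cast_zero])
  obtain ⟨Dv, f, hi, hj, hDx, hf, hD, hi', hj'⟩ :=
    exists_uniform R hA hij (Nat.pos_of_ne_zero hn0) x.2
  have hmem : Pic0.mk Dv ∈ Pic0.torsion K F n := hDx ▸ x.2
  obtain rfl : x = ⟨Pic0.mk Dv, hmem⟩ := Subtype.ext hDx.symm
  obtain ⟨h, hh0, hh⟩ := AddSubgroup.mem_addSubgroupOf.1 ((QuotientAddGroup.eq_zero_iff _).1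
    ((picPushAlong_mk α hα hfin hN Dv).symm.trans hx))
  have hu0 : Algebra.norm F' f ≠ 0 := Algebra.norm_ne_zero_iff.2 hf
  have hord : ∀ v : Place K F', v.ord (Algebra.norm F' f) = (n : ℤ) * v.ord h := fun v => by
    have h1 : Divisor.pushforwardAlong α hα ((n : ℤ) • (Dv : Divisor K F)) v =
        v.ord (Algebra.norm F' f) := hN f hf _ (fun w => by simpa using hD w) v
    rw [← h1, map_zsmul, Finsupp.smul_apply, smul_eq_mul]
    exact congrArg _ (hh v)
  obtain ⟨a, ha⟩ := exists_eq_const_mul hu0 hh0 n hord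
  obtain ⟨cc, hcc, hcc'⟩ := hb.scale h hh0
  have hcc0 : cc ≠ 0 := fun e => hcc' (by
    rw [show (⟨_, hcc⟩ : V') = 0 from Subtype.ext (by simp [e]), map_zero])
  have hunit : IsUnit (⟨cc • h, hcc⟩ : V') := not_not.1 fun e => hcc' (hb.ker _ e)
  obtain ⟨⟨r, hr⟩, hrr⟩ := isUnit_iff_exists_inv.1 (hunit.pow n)
  obtain ⟨hN', hNe⟩ := hd.norm_red hb hij hi hj
  have ha' : Algebra.norm F' f = algebraMap K F' (a / cc ^ n) * (cc • h) ^ n := by
    rw [ha, Algebra.smul_def, mul_pow, ← map_pow, ← mul_assoc, ← map_mul,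
      div_mul_cancel₀ _ (pow_ne_zero _ hcc0)]
  have haV : algebraMap K F' (a / cc ^ n) ∈ V' := by
    have e : algebraMap K F' (a / cc ^ n) = Algebra.norm F' f * r := by
      have h1 : (cc • h) ^ n * r = 1 := congrArg Subtype.val hrr
      rw [ha', mul_assoc, h1, mul_one]
    exact e ▸ mul_mem hN' hr
  have hkey : R.φ i ⟨f, hi⟩ * D.c (R.φ j ⟨f, hj⟩) =
      algebraMap k E (R.π ⟨_, (hb.mem_iff _).1 haV⟩) * φ' ⟨cc • h, hcc⟩ ^ n := by
    rw [← hNe, ← hb.red_algebraMap ⟨_, (hb.mem_iff _).1 haV⟩ haV, ← map_pow, ← map_mul]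
    exact congrArg φ' (Subtype.ext ha')
  have hπ : R.π ⟨_, (hb.mem_iff _).1 haV⟩ ≠ 0 := fun e => by
    rw [e, map_zero, zero_mul] at hkey
    exact mul_ne_zero hi' ((map_ne_zero _).2 hj') hkey
  rw [componentMap_mk hn i Dv f 1 (by rwa [one_smul]) (Units.mk0 _ hi') hmem hf hD
      (congrArg (R.φ i) (Subtype.ext (one_smul _ _))),
    componentMap_mk hn j Dv f 1 (by rwa [one_smul]) (Units.mk0 _ hj') hmem hf hD
      (congrArg (R.φ j) (Subtype.ext (one_smul _ _))),
    D.compMap_mk, ← ofMul_mul, ← QuotientGroup.mk_mul, ← ofMul_one, Additive.ofMul.apply_eq_iff_eq,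
    QuotientGroup.eq_one_iff]
  rw [show (Units.mk0 _ hi' * Units.map (D.c : E →* E) (Units.mk0 _ hj') : Eˣ) =
      Units.map (algebraMap k E : k →* E) (Units.mk0 _ hπ) * Units.mk0 _ hcc' ^ n from
    Units.ext (by simpa using hkey)]
  exact mul_mem (Subgroup.mem_sup_left ⟨_, rfl⟩) (Subgroup.mem_sup_right ⟨_, rfl⟩)

/-- A semilinear automorphism reducing to the arithmetic Frobenius on every component. -/
structure FrobeniusAction (R : MultiReduction A F k (fun _ : ι => E)) {q : ℕ}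
    (D : FrobeniusData k E q) (g : SemilinearAut K F) : Prop where
  mem_A_iff : ∀ a : K, SemilinearAut.baseAut g a ∈ A ↔ a ∈ A
  π_apply : ∀ a : A, R.π ⟨SemilinearAut.baseAut g a, (mem_A_iff a).2 a.2⟩ = R.π a ^ q
  mem_V_iff : ∀ (i : ι) (f : F), g • f ∈ R.V i ↔ f ∈ R.V i
  φ_smul : ∀ (i : ι) (f : R.V i),
    R.φ i ⟨g • (f : F), (mem_V_iff i f).2 f.2⟩ = D.c (R.φ i f)
  smul_poleX : g • R.poleX = R.poleX

namespace FrobeniusAction

variable {g : SemilinearAut K F} [IsAlgClosed k]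

omit [Fact q.Prime] [CharP k q] [IsAlgClosed k] in
theorem componentMap_smul (hg : FrobeniusAction R D g) {n : ℕ} (hn : (n : k) ≠ 0) (i : ι)
    (x : Pic0.torsion K F n) :
    componentMap R hn i (g • x) = D.compMap n (componentMap R hn i x) := by
  obtain ⟨Dv, hDx⟩ := Pic0.mk_surjective (x : Pic0 K F)
  have hmem : Pic0.mk Dv ∈ Pic0.torsion K F n := hDx ▸ x.2
  obtain rfl : x = ⟨Pic0.mk Dv, hmem⟩ := Subtype.ext hDx.symm
  have h0 : Pic0.mk ((n : ℤ) • Dv) = 0 := Pic0.mem_torsion.1 hmem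
  obtain ⟨f, hf, hfD⟩ := AddSubgroup.mem_addSubgroupOf.1 ((QuotientAddGroup.eq_zero_iff _).1 h0)
  have hD : ∀ v : Place K F, (n : ℤ) * (Dv : Divisor K F) v = v.ord f := fun v => by
    rw [← hfD v]; simp
  obtain ⟨c, hc, hc'⟩ := R.exists_scale i f hf
  have hgf : ∀ v : Place K F,
      (n : ℤ) * (SemilinearAut.degZeroSMulHom g Dv : Divisor K F) v = v.ord (g • f) := fun v => by
    obtain ⟨w, rfl⟩ : ∃ w, g • w = v := ⟨g⁻¹ • v, smul_inv_smul g v⟩
    rw [SemilinearAut.coe_degZeroSMulHom, SemilinearAut.divisor_smul_apply_smul,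
      SemilinearAut.ord_smul, hD w]
  have e : SemilinearAut.baseAut g c • g • f = g • (c • f) := by
    rw [Algebra.smul_def c f, smul_mul', SemilinearAut.smul_algebraMap, Algebra.smul_def]
  have hmem' : Pic0.mk (SemilinearAut.degZeroSMulHom g Dv) ∈ Pic0.torsion K F n :=
    SemilinearAut.smul_mem_torsion g hmem
  have hgc : SemilinearAut.baseAut g c • g • f ∈ R.V i := e ▸ (hg.mem_V_iff i _).2 hc
  rw [componentMap_mk hn i Dv f c hc (Units.mk0 _ hc') hmem hf hD rfl, D.compMap_mk]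
  exact componentMap_mk hn i (SemilinearAut.degZeroSMulHom g Dv) (g • f)
    (SemilinearAut.baseAut g c) hgc
    (Units.map (D.c : E →* E) (Units.mk0 _ hc')) hmem' (by simpa using hf) hgf
    ((congrArg (R.φ i) (Subtype.ext e)).trans (hg.φ_smul i ⟨c • f, hc⟩))

/-- The square of the Frobenius action, as an automorphism of the reduction. -/
def sq (hg : FrobeniusAction R D g) : ReductionAut R :=
  haveI : PerfectRing k q := PerfectRing.ofSurjective k q fun a => by
    simpa [frobenius_def, eq_comm] using IsAlgClosed.exists_pow_nat_eq a (Fact.out : q.Prime).pos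
  { g := g * g
    mem_A_iff := fun a => by
      rw [SemilinearAut.baseAut_mul]
      exact (hg.mem_A_iff _).trans (hg.mem_A_iff a)
    σk := (frobeniusEquiv k q).trans (frobeniusEquiv k q)
    π_apply := fun a => by
      refine (hg.π_apply ⟨_, (hg.mem_A_iff a).2 a.2⟩).trans ?_
      rw [hg.π_apply a]
      rfl
    τ := Equiv.refl ι
    mem_V_iff := fun i f => by
      rw [mul_smul]
      exact (hg.mem_V_iff i _).trans (hg.mem_V_iff i f)
    θ := fun _ => D.c.trans D.c
    θ_algebraMap := fun i a => by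
      show D.c (D.c (algebraMap k E a)) = algebraMap k E (((a ^ q)) ^ q)
      rw [D.c_algebraMap, D.c_algebraMap]
    φ_smul := fun i f => by
      show R.φ i _ = D.c (D.c (R.φ i f))
      rw [← hg.φ_smul i f, ← hg.φ_smul i ⟨_, (hg.mem_V_iff i f).2 f.2⟩]
      exact congrArg (R.φ i) (Subtype.ext (mul_smul g g (f : F)))
    smul_poleX := by rw [mul_smul, hg.smul_poleX, hg.smul_poleX] }

/-- The relation `(g ^ 2 - q ^ 2) (g ^ 2 - 1) = 0` on a torsion class killed by both
push-forwards. -/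
theorem relation (hg : FrobeniusAction R D g) [IsFunctionFieldOne K F'] (hA : RankLeOne A)
    (G : Gluing R) (hG : G.IsSeminormal) (hB : ∀ b ∈ G.B, hg.sq.mapBranch b ∈ G.B)
    (hfix : ∀ b b' : ↥G.B, b ≠ b' → G.pt b = G.pt b' → hg.sq.mapBranch b = b)
    {β : F' →ₐ[K] F} (hij : i ≠ j) (cover : ∀ l, l = i ∨ l = j) (hb : BaseReduction R V' φ')
    (hd : DegeneracyReduction R D α V' φ' i j) (hd' : DegeneracyReduction R D β V' φ' j i)
    (hαi : α.toRingHom.IsIntegral) (hαf : FiniteAlong K α) (hαN : NormFormulaAlong K α hαf)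
    (hβi : β.toRingHom.IsIntegral) (hβf : FiniteAlong K β) (hβN : NormFormulaAlong K β hβf)
    {n : ℕ} (hn : (n : k) ≠ 0) {x : Pic0 K F} (hx : x ∈ Pic0.torsion K F n)
    (hα : picPushAlong α hαi hαf hαN x = 0) (hβ : picPushAlong β hβi hβf hβN x = 0) :
    g • g • (g • g • x - x) = q ^ 2 • (g • g • x - x) := by
  classical
  have e1 := hd.componentMap_add hb hij hA hαi hαf hαN hn ⟨x, hx⟩ hα
  have e2 := hd'.componentMap_add hb hij.symm hA hβi hβf hβN hn ⟨x, hx⟩ hβ
  have hC : ∀ l, D.compMap n (D.compMap n (componentMap R hn l ⟨x, hx⟩)) =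
      componentMap R hn l ⟨x, hx⟩ := by
    intro l
    rcases cover l with rfl | rfl
    · exact apply_apply_of_add_eq_zero (G := Additive (CompGroup k E n)) (D.compMap n) e1 e2
    · exact apply_apply_of_add_eq_zero (G := Additive (CompGroup k E n)) (D.compMap n) e2 e1
  have hy : IsGood G n (g • g • x - x) := by
    refine hG.isGood G hn ((isComponentTrivial_iff hA hn (g • g • ⟨x, hx⟩ - ⟨x, hx⟩)).2 fun l => ?_)
    rw [map_sub, hg.componentMap_smul hn, hg.componentMap_smul hn, hC]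
    exact sub_self (componentMap R hn l ⟨x, hx⟩)
  -- the permutation of the branches
  have hinj : Function.Injective
      (fun b : ↥G.B => (⟨hg.sq.mapBranch b, hB b b.2⟩ : ↥G.B)) := by
    intro b b' h
    obtain ⟨⟨i₁, v⟩, hb₁⟩ := b
    obtain ⟨⟨i₂, v'⟩, hb₂⟩ := b'
    have h' := congrArg Subtype.val h
    obtain rfl : i₁ = i₂ := congrArg Sigma.fst h'
    have h2 := eq_of_heq (Sigma.mk.inj h').2
    refine Subtype.ext (Sigma.ext rfl (heq_of_eq (Place.ext ?_)))
    ext f
    have h3 := congrArg (fun w : Place k E => (D.c.trans D.c) f ∈ w.toValuationSubring) h2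
    simpa [ReductionAut.mapPlace, FrobeniusAction.sq, ValuationSubring.mem_comap] using h3
  let e : ↥G.B ≃ ↥G.B := Equiv.ofBijective _ ⟨hinj, Finite.surjective_of_injective hinj⟩
  have hfix' : ∀ b b' : ↥G.B, b ≠ b' → G.pt b = G.pt b' → e b = b := fun b b' h h' =>
    Subtype.ext (hfix b b' h h')
  let P : hg.sq.Preserves G :=
    { e := e
      coe_e := fun b => rfl
      pt_compat := fun b b' h => by
        rcases eq_or_ne b b' with rfl | hne
        · rfl
        · rw [hfix' b b' hne h, hfix' b' b hne.symm h.symm, h] }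
  have hmem := IsGood.mem_goodTorsion G hy
  obtain ⟨γ, hγ⟩ : ∃ γ, gluingHom G hn ⟨_, hmem⟩ = G.mkData γ := by
    obtain ⟨γ, hγ⟩ := QuotientGroup.mk_surjective
      (Additive.toMul (gluingHom G hn ⟨_, hmem⟩))
    exact ⟨γ, by rw [Gluing.mkData, hγ]; rfl⟩
  have h1 := P.gluingHom_smul G hn hmem hγ
  have h2 : gluingHom G hn (q ^ 2 • ⟨_, hmem⟩) = G.mkData (γ ^ q ^ 2) := by
    rw [map_nsmul, hγ]; rfl
  have h3 : G.mkData (P.onValues G γ) = G.mkData (γ ^ q ^ 2) := by
    rw [← sub_eq_zero]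
    show Additive.ofMul ((QuotientGroup.mk _ : G.Data) / QuotientGroup.mk _) = 0
    rw [← QuotientGroup.mk_div]
    refine (Gluing.mkData_eq_zero_iff G).2 ⟨1,
      Function.extend G.pt (P.onValues G γ / γ ^ q ^ 2) 1, fun b => ?_⟩
    rw [Pi.one_apply, one_mul]
    have hfac : Function.FactorsThrough (P.onValues G γ / γ ^ q ^ 2) G.pt := by
      intro b b' hbb'
      rcases eq_or_ne b b' with rfl | hne
      · rfl
      have hone : ∀ c c' : ↥G.B, c ≠ c' → G.pt c = G.pt c' →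
          (P.onValues G γ / γ ^ q ^ 2) c = 1 := fun c c' hc hc' => by
        rw [Pi.div_apply, div_eq_one]
        ext
        have : P.e.symm c = c := P.e.symm_apply_eq.2 (hfix' c c' hc hc').symm
        simp only [ReductionAut.Preserves.onValues, this, Pi.pow_apply, Units.coe_map,
          Units.val_pow_eq_pow_val]
        show ((γ c : k) ^ q) ^ q = _
        rw [← pow_mul, pow_two]
      rw [hone b b' hne hbb', hone b' b hne.symm hbb'.symm]
    exact (hfac.extend_apply 1 b).symm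
  have h4 := gluingHom_injective G hA q hn (h1.trans (h3.trans h2.symm))
  have h5 := congrArg Subtype.val h4
  rw [AddSubmonoidClass.coe_nsmul] at h5
  exact (mul_smul g g _).symm.trans h5

end FrobeniusAction

end

end Fermat.Agent.NewformRep

end
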