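/-
Representations of newforms: row vectors annihilated by a quadratic polynomial in a matrix.
-/
import Mathlib.LinearAlgebra.Matrix.NonsingularInverse
import Mathlib.LinearAlgebra.Matrix.Trace
import Mathlib.LinearAlgebra.Matrix.ToLin
import Mathlib.Tactic.LinearCombination

set_option autoImplicit false

noncomputable section

open scoped Matrix

namespace Fermat.Agent.NewformRep

variable {O : Type*} [CommRing O] {m : Type*} [Fintype m] [DecidableEq m]

/-- `w` is killed by `X² - t X + d` evaluated at `G`. -/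
def RowQuad (G : Matrix m m O) (t d : O) (w : m → O) : Prop :=
  (w ᵥ* G) ᵥ* G = t • (w ᵥ* G) - d • w

omit [DecidableEq m] in
theorem RowQuad.vecMul {G : Matrix m m O} {t d : O} {w : m → O} (h : RowQuad G t d w) :
    RowQuad G t d (w ᵥ* G) := by
  unfold RowQuad at *
  rw [h, Matrix.sub_vecMul, Matrix.smul_vecMul, Matrix.smul_vecMul, h]

theorem RowQuad.sub_smul {G : Matrix m m O} {t d : O} {w : m → O} (h : RowQuad G t d w) (a : O) :
    RowQuad G t d (w ᵥ* G - a • w) := by
  have h' := h.vecMul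
  unfold RowQuad at *
  rw [Matrix.sub_vecMul, Matrix.smul_vecMul, Matrix.sub_vecMul, Matrix.smul_vecMul, h', h]
  module

omit [DecidableEq m] in
/-- If `a` is not a root of the quadratic, `G - a` is injective on such vectors. -/
theorem RowQuad.eq_zero_of_vecMul_eq_smul [IsDomain O] {G : Matrix m m O} {t d a : O} {w : m → O}
    (h : RowQuad G t d w) (ha : a * a - t * a + d ≠ 0) (hw : w ᵥ* G - a • w = 0) : w = 0 := by
  unfold RowQuad at h
  rw [sub_eq_zero.mp hw, Matrix.smul_vecMul, sub_eq_zero.mp hw] at h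
  have h2 : (a * a - t * a + d) • w = 0 := by
    have h3 : a • a • w - (t • a • w - d • w) = 0 := sub_eq_zero.mpr h
    rw [← h3]
    module
  exact (smul_eq_zero.mp h2).resolve_left ha

/-- A nonzero vector killed by `X² - t X + q` and by `(X² - q²) (X² - 1)` forces `t = ±(q + 1)`. -/
theorem RowQuad.trace_eq [IsDomain O] {G : Matrix m m O} {t q : O} {w : m → O}
    (h : RowQuad G t q w) (hw : w ≠ 0) (hq : q ≠ 0)
    (hP : (w ᵥ* (G * G - (q * q) • (1 : Matrix m m O))) ᵥ* (G * G - 1) = 0) :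
    t = q + 1 ∨ t = -(q + 1) := by
  by_contra hcon
  push Not at hcon
  -- none of `±1`, `±q` is a root
  have r1 : (1 : O) * 1 - t * 1 + q ≠ 0 := fun e => hcon.1 (by linear_combination -e)
  have r2 : (-1 : O) * (-1) - t * (-1) + q ≠ 0 := fun e => hcon.2 (by linear_combination e)
  have r3 : q * q - t * q + q ≠ 0 := fun e => hcon.1 (mul_left_cancel₀ hq (by linear_combination -e))
  have r4 : (-q) * (-q) - t * (-q) + q ≠ 0 := fun e =>
    hcon.2 (mul_left_cancel₀ hq (by linear_combination e))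
  have step : ∀ (a : O), a * a - t * a + q ≠ 0 → (-a) * (-a) - t * (-a) + q ≠ 0 →
      ∀ u : m → O, RowQuad G t q u → u ≠ 0 →
        RowQuad G t q (u ᵥ* (G * G - (a * a) • (1 : Matrix m m O))) ∧
          u ᵥ* (G * G - (a * a) • (1 : Matrix m m O)) ≠ 0 := by
    intro a ha ha' u hu hu0
    have e : u ᵥ* (G * G - (a * a) • (1 : Matrix m m O)) =
        (u ᵥ* G - a • u) ᵥ* G - (-a) • (u ᵥ* G - a • u) := by
      rw [Matrix.vecMul_sub, ← Matrix.vecMul_vecMul, Matrix.vecMul_smul, Matrix.vecMul_one,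
        Matrix.sub_vecMul, Matrix.smul_vecMul]
      module
    have h1 := hu.sub_smul a
    have h10 : u ᵥ* G - a • u ≠ 0 := fun e1 => hu0 (hu.eq_zero_of_vecMul_eq_smul ha e1)
    rw [e]
    exact ⟨h1.sub_smul (-a), fun e2 => h10 (h1.eq_zero_of_vecMul_eq_smul ha' e2)⟩
  obtain ⟨hA, hA0⟩ := step q r3 r4 w h hw
  obtain ⟨-, hC0⟩ := step 1 r1 r2 _ hA hA0
  rw [one_mul, one_smul] at hC0
  exact hC0 hP

/-- Powers: if `G` satisfies the characteristic polynomial of a `2 × 2` matrix `B` on a stable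
set of vectors, so does `G ^ k` for `B ^ k`. -/
theorem rowQuad_pow (G : Matrix m m O) (B : Matrix (Fin 2) (Fin 2) O) (E : Set (m → O))
    (hE : ∀ w ∈ E, w ᵥ* G ∈ E) (h : ∀ w ∈ E, RowQuad G B.trace B.det w) (k : ℕ) (w : m → O)
    (hw : w ∈ E) : RowQuad (G ^ k) (B ^ k).trace (B ^ k).det w := by
  have hB : B * B = B.trace • B - B.det • (1 : Matrix (Fin 2) (Fin 2) O) := by
    ext i j
    fin_cases i <;> fin_cases j <;>
      simp [Matrix.mul_apply, Fin.sum_univ_two, Matrix.trace_fin_two, Matrix.det_fin_two] <;> ring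
  obtain ⟨u, v, hBk, hGk⟩ : ∃ u v : O, B ^ k = u • B + v • 1 ∧
      ∀ w ∈ E, w ᵥ* G ^ k = u • (w ᵥ* G) + v • w := by
    induction k with
    | zero => exact ⟨0, 1, by simp, fun w _ => by simp⟩
    | succ k ih =>
      obtain ⟨u, v, hBk, hGk⟩ := ih
      refine ⟨u * B.trace + v, -(u * B.det), ?_, fun w hw => ?_⟩
      · rw [pow_succ, hBk, add_mul, Matrix.smul_mul, Matrix.smul_mul, one_mul, hB]
        module
      · rw [pow_succ, ← Matrix.vecMul_vecMul, hGk w hw, Matrix.add_vecMul, Matrix.smul_vecMul,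
          Matrix.smul_vecMul, h w hw]
        module
  have ht : (B ^ k).trace = u * B.trace + 2 * v := by
    rw [hBk]
    simp [Matrix.trace_fin_two]
    ring
  have hd : (B ^ k).det = u * u * B.det + u * v * B.trace + v * v := by
    rw [hBk]
    simp [Matrix.det_fin_two, Matrix.trace_fin_two]
    ring
  unfold RowQuad
  rw [hGk w hw, Matrix.add_vecMul, Matrix.smul_vecMul, Matrix.smul_vecMul, hGk _ (hE w hw),
    hGk w hw, h w hw, ht, hd]
  module

end Fermat.Agent.NewformRep

end
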