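/-
Representations of newforms: on an eigenlattice the Galois matrices satisfy the characteristic
polynomial of
the attached two-dimensional representation.
-/
import Fermat.Agent.GaloisAdic.Main
import Fermat.Agent.NewformRep.Quadratic

set_option autoImplicit false

noncomputable section

open scoped Matrix
open Polynomial

namespace Fermat.Agent.NewformRep

open GaloisAdic

local notation "ℚbar" => AlgebraicClosure ℚ
local notation "Γℚ" => AlgebraicClosure ℚ ≃ₐ[ℚ] AlgebraicClosure ℚ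

section General

variable {O : Type} [CommRing O] [IsLocalRing O]

/-- The matrix of a two-dimensional representation. -/
def repMatrix (ρ : GaloisRepAdic O) : Γℚ →* Matrix (Fin 2) (Fin 2) O :=
  (LinearMap.toMatrixAlgEquiv (Module.finBasisOfFinrankEq O ρ.V ρ.finrank_eq)).toMonoidHom.comp ρ.ρ

theorem charpoly_repMatrix (ρ : GaloisRepAdic O) (σ : Γℚ) :
    (repMatrix ρ σ).charpoly = LinearMap.charpoly (ρ.ρ σ) :=
  LinearMap.charpoly_toMatrix (ρ.ρ σ) (Module.finBasisOfFinrankEq O ρ.V ρ.finrank_eq)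

theorem det_repMatrix (ρ : GaloisRepAdic O) (σ : Γℚ) :
    (repMatrix ρ σ).det = LinearMap.det (ρ.ρ σ) :=
  LinearMap.det_toMatrix (Module.finBasisOfFinrankEq O ρ.V ρ.finrank_eq) (ρ.ρ σ)

theorem trace_det_of_charpoly_eq [Nontrivial O] {B : Matrix (Fin 2) (Fin 2) O} {t d : O}
    (h : B.charpoly = X ^ 2 - C t * X + C d) : B.trace = t ∧ B.det = d := by
  rw [Matrix.charpoly_fin_two] at h
  have h0 := congrArg (fun P : O[X] => P.coeff 0) h
  have h1 := congrArg (fun P : O[X] => P.coeff 1) h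
  simp [coeff_X_pow] at h0 h1
  exact ⟨h1, h0⟩

theorem repMatrix_continuous (ρ : GaloisRepAdic O) (n : ℕ) :
    ∃ L : IntermediateField ℚ ℚbar, FiniteDimensional ℚ L ∧
      ∀ σ : Γℚ, (∀ x ∈ L, σ x = x) →
        ∀ i j, (repMatrix ρ σ - 1) i j ∈ IsLocalRing.maximalIdeal O ^ n := by
  obtain ⟨L, hL, h⟩ := ρ.isAdicContinuous n
  refine ⟨L, hL, fun σ hσ i j => ?_⟩
  set b := Module.finBasisOfFinrankEq O ρ.V ρ.finrank_eq
  have hmem : ∀ x ∈ (IsLocalRing.maximalIdeal O ^ n) • (⊤ : Submodule O ρ.V),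
      b.repr x i ∈ IsLocalRing.maximalIdeal O ^ n := fun x hx => by
    refine Submodule.smul_induction_on hx (fun a ha w _ => ?_) fun x y hx hy => ?_
    · rw [map_smul, Finsupp.smul_apply, smul_eq_mul]
      exact Ideal.mul_mem_right _ _ ha
    · rw [map_add, Finsupp.add_apply]
      exact add_mem hx hy
  have h1 := hmem _ (h σ hσ (b j))
  rw [map_sub, Finsupp.sub_apply] at h1
  convert h1 using 1
  rw [Matrix.sub_apply]
  show LinearMap.toMatrixAlgEquiv b (ρ.ρ σ) i j - _ = _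
  rw [LinearMap.toMatrixAlgEquiv_apply, b.repr_self]
  congr 1
  simp [Matrix.one_apply, Finsupp.single_apply, eq_comm]

/-- Congruent elements give congruent matrices. -/
theorem map_mk_eq {m : Type*} [Fintype m] [DecidableEq m] (R : Γℚ →* Matrix m m O) (I : Ideal O)
    {σ τ : Γℚ} (h : ∀ i j, (R (σ⁻¹ * τ) - 1) i j ∈ I) :
    (R σ).map (Ideal.Quotient.mk I) = (R τ).map (Ideal.Quotient.mk I) := by
  have h1 : (R (σ⁻¹ * τ)).map (Ideal.Quotient.mk I) = 1 := by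
    ext i j
    rw [Matrix.map_apply]
    have := Ideal.Quotient.eq.2 (h i j |> fun h => by rwa [Matrix.sub_apply] at h)
    rw [this]
    rcases eq_or_ne i j with rfl | hij
    · simp
    · simp [Matrix.one_apply_ne hij]
  conv_rhs => rw [← mul_inv_cancel_left σ τ, map_mul, Matrix.map_mul, h1, Matrix.mul_one]

theorem RowQuad.map {m : Type*} [Fintype m] {R : Type*} [CommRing R] (f : O →+* R)
    {G : Matrix m m O} {t d : O} {w : m → O} (h : RowQuad G t d w) :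
    RowQuad (G.map f) (f t) (f d) (f ∘ w) := by
  unfold RowQuad at *
  funext i
  have h1 := congrArg f (congrFun h i)
  rw [RingHom.map_vecMul, show f ∘ (w ᵥ* G) = (f ∘ w) ᵥ* G.map f from
    funext fun j => RingHom.map_vecMul f G w j] at h1
  rw [h1]
  simp [RingHom.map_vecMul, Function.comp_def]

end General

variable {N : ℕ} [NeZero N] {p : ℕ} [Fact p.Prime]

/-- On the eigenlattice every Galois element satisfies the characteristic polynomial of `ρ`. -/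
theorem eigenRep_rowQuad (F : TorsionFrame N p) (hF : TorsionFacts N p) {S : Set ℕ}
    (T₀ : Finset ℕ) (hS : ∀ ℓ : ℕ, ℓ.Prime → ℓ ∈ S → ℓ ∈ T₀)
    {O : Type} [CommRing O] [IsLocalRing O] [IsAdicComplete (IsLocalRing.maximalIdeal O) O]
    (hp : (p : O) ∈ IsLocalRing.maximalIdeal O) {χ : CuspForm.heckeAlgebra N 2 S →+* O} {k : ℕ}
    [NeZero k] {Y : Matrix (Fin F.H.r) (Fin k) O}
    {Z : Matrix (Fin k) (Fin F.H.r) O} (hZY : Z * Y = 1) (ρ₀ : Γℚ →* Matrix (Fin k) (Fin k) O)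
    (hρ₀ : ∀ σ, ρ₀ σ = Z * (F.galMatrix σ).map (padicIntHom O hp) * Y)
    (hRY : ∀ σ, (F.galMatrix σ).map (padicIntHom O hp) * Y = Y * ρ₀ σ)
    (hcol : ∀ t : CuspForm.heckeAlgebra N 2 S,
      (F.H.mat (Subalgebra.inclusion (CuspForm.heckeAlgebra_mono (Set.empty_subset S)) t)).map
        (Int.castRingHom O) * Y = χ t • Y)
    (ρ : GaloisRepAdic O)
    (hchar : ∀ (ℓ : ℕ) (hℓ : ℓ.Prime) (hℓN : ¬ ℓ ∣ N) (hℓS : ℓ ∉ S), ℓ ≠ p →
      ∀ A : ValuationSubring ℚbar, A.LiesOverPrime ℓ → ∀ σ : Γℚ, A.IsFrobeniusAt σ ℓ →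
        LinearMap.charpoly (ρ.ρ σ) =
          X ^ 2 - C (χ (CuspForm.heckeAlgebra.T hℓ hℓN hℓS)) * X + C ((ℓ : O)))
    (σ : Γℚ) (w : Fin k → O) :
    RowQuad (ρ₀ σ) (repMatrix ρ σ).trace (repMatrix ρ σ).det w := by
  unfold RowQuad
  funext i
  refine sub_eq_zero.1 (IsHausdorff.haus (inferInstance :
    IsHausdorff (IsLocalRing.maximalIdeal O) O) _ fun n => ?_)
  rw [SModEq.zero, smul_eq_mul, Ideal.mul_top]
  set I := IsLocalRing.maximalIdeal O ^ n
  obtain ⟨L₁, hL₁, hc₁⟩ := eigenRep_continuous F hF hp hZY ρ₀ hρ₀ n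
  obtain ⟨L₂, hL₂, hc₂⟩ := repMatrix_continuous ρ n
  obtain ⟨ℓ, hℓ, hℓT, A, hA, τ, hτ, ⟨j, hj⟩, -⟩ :=
    Density.exists_frobenius_pow σ (L₁ ⊔ L₂) (T₀ ∪ (N * p).primeFactors)
  rw [Finset.mem_union, not_or, Nat.mem_primeFactors_of_ne_zero
    (mul_ne_zero (NeZero.ne N) (Fact.out (p := p.Prime)).ne_zero)] at hℓT
  have hℓN : ¬ ℓ ∣ N := fun h => hℓT.2 ⟨hℓ, dvd_mul_of_dvd_left h p⟩
  have hℓp : ℓ ≠ p := fun h => hℓT.2 ⟨hℓ, h ▸ dvd_mul_left p N⟩
  have hℓS : ℓ ∉ S := fun h => hℓT.1 (hS ℓ hℓ h)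
  have hh : ∀ x ∈ L₁ ⊔ L₂, (σ⁻¹ * τ ^ j) x = x := fun x hx => by
    rw [AlgEquiv.mul_apply, ← hj x hx]
    exact σ.symm_apply_apply x
  have e₁ := map_mk_eq ρ₀ I (τ := τ ^ j) (σ := σ)
    (hc₁ _ fun x hx => hh x (SetLike.le_def.1 (le_sup_left (b := L₂)) hx)).1
  have e₂ := map_mk_eq (repMatrix ρ) I (τ := τ ^ j) (σ := σ)
    (hc₂ _ fun x hx => hh x (SetLike.le_def.1 (le_sup_right (a := L₁)) hx))
  have hquad := eigenRep_frobenius F hF hp hZY ρ₀ hRY hcol hℓ hℓN hℓS hℓp hA hτ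
  rw [padicCyclo_frobenius p hℓ hℓp hA hτ, map_natCast] at hquad
  obtain ⟨htr, hdet⟩ := trace_det_of_charpoly_eq
    ((charpoly_repMatrix ρ τ).trans (hchar ℓ hℓ hℓN hℓS hℓp A hA τ hτ))
  have hτrow : ∀ u ∈ (Set.univ : Set (Fin k → O)),
      RowQuad (ρ₀ τ) (repMatrix ρ τ).trace (repMatrix ρ τ).det u := fun u _ => by
    unfold RowQuad
    have h2 := congrArg (fun M : Matrix (Fin k) (Fin k) O => u ᵥ* M) hquad
    simp only [Matrix.vecMul_add, Matrix.vecMul_sub, Matrix.vecMul_smul, Matrix.vecMul_one,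
      Matrix.vecMul_zero] at h2
    rw [htr, hdet, Matrix.vecMul_vecMul, ← sub_eq_zero, ← h2]
    module
  have hpow := (rowQuad_pow (ρ₀ τ) (repMatrix ρ τ) Set.univ (fun _ _ => Set.mem_univ _) hτrow j w
    (Set.mem_univ _)).map (Ideal.Quotient.mk I)
  rw [← map_pow, ← map_pow, ← e₁,
    show Ideal.Quotient.mk I (repMatrix ρ (τ ^ j)).trace =
      Ideal.Quotient.mk I (repMatrix ρ σ).trace by
      rw [AddMonoidHom.map_trace, AddMonoidHom.map_trace, e₂],
    show Ideal.Quotient.mk I (repMatrix ρ (τ ^ j)).det =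
      Ideal.Quotient.mk I (repMatrix ρ σ).det by
      rw [RingHom.map_det, RingHom.map_det, RingHom.mapMatrix_apply, RingHom.mapMatrix_apply,
        e₂]] at hpow
  refine Ideal.Quotient.eq_zero_iff_mem.1 ?_
  rw [map_sub, sub_eq_zero]
  have h3 := congrFun hpow i
  simpa [RingHom.map_vecMul, Function.comp_def] using h3

end Fermat.Agent.NewformRep

end
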