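/-
Representations of newforms: Frobenius at a prime of exact bad reduction on the new torsion of
`J₀(M q)`.
-/
import Fermat.Agent.NewformRep.Degeneracy
import Fermat.Agent.NewformRep.GeometryAbstract
import Fermat.Agent.BadReduction.X0Conductor
import Fermat.Agent.BadReduction.X0FrobeniusAction
import Fermat.Agent.Mazur.LocalRank
import Fermat.Prelude.Def_EllipticCurve_FrobeniusTrace

set_option autoImplicit false
set_option linter.style.haveILetI false
set_option synthInstance.maxHeartbeats 400000

noncomputable section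

open AlgebraicCurve ModularCurve Fermat.Agent.Bad Fermat.Agent.BadReduction Fermat.Agent.Curve

namespace Fermat.Agent.NewformRep

local notation "Qbar" => AlgebraicClosure ℚ
local notation "Γℚ" => AlgebraicClosure ℚ ≃ₐ[ℚ] AlgebraicClosure ℚ

/-- A branch fixed by the square of the arithmetic Frobenius is fixed by the square of a
Frobenius action. -/
theorem mapBranch_sq_eq_self {K : Type*} [Field K] {A : ValuationSubring K} {F : Type*} [Field F]
    [Algebra K F] [IsAlgClosed K] [IsFunctionFieldOne K F] {ι : Type*} [Fintype ι] {k : Type*}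
    [Field k] [IsAlgClosed k] {E : Type*} [Field E] [Algebra k E] [IsFunctionFieldOne k E]
    {R : MultiReduction A F k (fun _ : ι => E)} {q : ℕ} [Fact q.Prime] [CharP k q]
    {D : FrobeniusData k E q} {g : SemilinearAut K F} (hg : FrobeniusAction R D g)
    (b : Σ _ : ι, Place k E)
    (h : ∀ f : E, D.c (D.c f) ∈ b.2.toValuationSubring ↔ f ∈ b.2.toValuationSubring) :
    hg.sq.mapBranch b = b := by
  obtain ⟨i, v⟩ := b
  refine Sigma.ext rfl (heq_of_eq (Place.ext ?_))
  ext f
  show (D.c.trans D.c).symm f ∈ v.toValuationSubring ↔ f ∈ v.toValuationSubring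
  conv_rhs => rw [← (D.c.trans D.c).apply_symm_apply f]
  exact (h _).symm

set_option maxHeartbeats 1000000 in
/-- On the torsion of `J₀(M q)` prime to `q` killed by both degeneracy push-forwards, a Frobenius
`σ` at `q` satisfies `(σ² - q²) (σ² - 1) = 0`. -/
theorem frobenius_relation (M q : ℕ) [NeZero M] [NeZero q] (hq : q.Prime) (hqM : ¬ q ∣ M)
    (A : ValuationSubring Qbar) (hA : A.LiesOverPrime q) (σ : Γℚ) (hσ : A.IsFrobeniusAt σ q)
    (n : ℕ) (hn : ¬ q ∣ n) (x : JZero (M * q)) (hx : n • x = 0)
    (hα : pushAlpha M q x = 0) (hβ : pushBeta M q x = 0) :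
    σ • σ • (σ • σ • x - x) = q ^ 2 • (σ • σ • x - x) := by
  haveI : Fact q.Prime := ⟨hq⟩
  haveI := charP_residue_of_liesOverPrime hq hA
  haveI := (x0Reduction hqM A hA).isAlgClosed_residue
  obtain ⟨B, hreg, hmeets, hfix, hZ⟩ := exists_conductor_frobenius hqM A hA
  have hg := frobeniusAction_x0 A hqM hA hσ
  have hfix' : ∀ b ∈ B, hg.sq.mapBranch b = b := fun b hb =>
    mapBranch_sq_eq_self hg b (hfix b hb)
  have hn' : (n : IsLocalRing.ResidueField A) ≠ 0 := fun h =>
    hn ((CharP.cast_eq_zero_iff _ q n).1 h)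
  have hxt : x ∈ Pic0.torsion Qbar (modularFunctionFieldBar (M * q)) n :=
    Pic0.mem_torsion.2 (by rw [natCast_zsmul]; exact hx)
  exact hg.relation (Mazur.rankLeOne_of_liesOverPrime hq hA)
    (Gluing.ofVanishing (x0Reduction hqM A hA) B hreg hmeets hZ)
    (Gluing.ofVanishing_isSeminormal _ B hreg hmeets hZ)
    (fun b hb => (hfix' b hb).symm ▸ hb) (fun b _ _ _ => hfix' b b.2)
    (i := 0) (j := 1) zero_ne_one (fun l => by fin_cases l <;> simp)
    (baseReduction_x0 hqM A hA) (degeneracyReduction_alpha hqM A hA)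
    (degeneracyReduction_beta hqM A hA) _ _ _ _ _ _ hn' hxt hα hβ

end Fermat.Agent.NewformRep

end
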