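/-
Representations of newforms: polynomials in the good Hecke operators which vanish at a lower level
but not
on a newform.
-/
import Fermat.Agent.Eigen.EigenHom
import Fermat.Agent.Newform.AtkinStrongMult
import Fermat.Agent.GaloisAdic.Frame
import Fermat.Prelude.Def_CuspForm_Newforms

set_option autoImplicit false

noncomputable section

open ModularFormClass

namespace Fermat.Agent.NewformRep

/-- Polynomials in the good primes outside `S`. -/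
abbrev GoodPoly (S : Set ℕ) : Type := MvPolynomial {ℓ : ℕ // ℓ.Prime ∧ ℓ ∉ S} ℤ

variable (N : ℕ) [NeZero N] {S : Set ℕ}

/-- Evaluation of a polynomial in the good primes in the Hecke algebra of level `N`. -/
def goodEval (hS : ∀ q : ℕ, q.Prime → q ∣ N → q ∈ S) : GoodPoly S →+* CuspForm.heckeAlgebra N 2 S :=
  MvPolynomial.eval₂Hom (Int.castRingHom _) fun ℓ =>
    CuspForm.heckeAlgebra.T ℓ.2.1 (fun h => ℓ.2.2 (hS ℓ ℓ.2.1 h)) ℓ.2.2

@[simp] theorem goodEval_X (hS : ∀ q : ℕ, q.Prime → q ∣ N → q ∈ S)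
    (ℓ : {ℓ : ℕ // ℓ.Prime ∧ ℓ ∉ S}) :
    goodEval N hS (MvPolynomial.X ℓ) =
      CuspForm.heckeAlgebra.T ℓ.2.1 (fun h => ℓ.2.2 (hS ℓ ℓ.2.1 h)) ℓ.2.2 :=
  MvPolynomial.eval₂Hom_X' _ _ ℓ

theorem goodEval_surjective (hS : ∀ q : ℕ, q.Prime → q ∣ N → q ∈ S) :
    Function.Surjective (goodEval N hS) := by
  intro ⟨T, hT⟩
  induction hT using Algebra.adjoin_induction with
  | mem x hx =>
    rcases hx with ⟨ℓ, hℓ, hℓN, hℓS, rfl⟩ | ⟨q, hqN, hq, hqS, rfl⟩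
    · exact ⟨MvPolynomial.X ⟨ℓ, hℓ, hℓS⟩, goodEval_X N hS _⟩
    · exact absurd (hS q hq hqN) hqS
  | algebraMap r => exact ⟨MvPolynomial.C r, by rw [goodEval, MvPolynomial.eval₂Hom_C]; rfl⟩
  | add x y _ _ hx hy =>
    obtain ⟨a, ha⟩ := hx
    obtain ⟨b, hb⟩ := hy
    exact ⟨a + b, by rw [map_add, ha, hb]; rfl⟩
  | mul x y _ _ hx hy =>
    obtain ⟨a, ha⟩ := hx
    obtain ⟨b, hb⟩ := hy
    exact ⟨a * b, by rw [map_mul, ha, hb]; rfl⟩

/-- The image in the full Hecke algebra. -/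
def goodEvalFull (hS : ∀ q : ℕ, q.Prime → q ∣ N → q ∈ S) :
    GoodPoly S →+* CuspForm.heckeAlgebra N 2 (∅ : Set ℕ) :=
  (Subalgebra.inclusion (CuspForm.heckeAlgebra_mono (Set.empty_subset S))).toRingHom.comp
    (goodEval N hS)

theorem goodEvalFull_X (hS : ∀ q : ℕ, q.Prime → q ∣ N → q ∈ S)
    (ℓ : {ℓ : ℕ // ℓ.Prime ∧ ℓ ∉ S}) :
    goodEvalFull N hS (MvPolynomial.X ℓ) = GaloisAdic.heckeGenAt N ⟨ℓ, ℓ.2.1⟩ := by
  unfold GaloisAdic.heckeGenAt
  rw [dif_neg (show ¬ ((⟨ℓ, ℓ.2.1⟩ : Nat.Primes) : ℕ) ∣ N from fun h => ℓ.2.2 (hS ℓ ℓ.2.1 h))]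
  show Subalgebra.inclusion (CuspForm.heckeAlgebra_mono (Set.empty_subset S))
    (goodEval N hS (MvPolynomial.X ℓ)) = _
  rw [goodEval_X]
  exact Subtype.ext rfl

/-- A polynomial in the good operators which vanishes at level `M'` but not on the newform. -/
theorem exists_goodPoly {M M' : ℕ} [NeZero M] [NeZero M']
    (hint : CuspForm.HasIntegralStructure M' 2)
    {g : CuspForm (CongruenceSubgroup.Gamma0 M) 2} (hg : g.IsNewform) (hdvd : M' ∣ M)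
    (hne : M' ≠ M) (S : Finset ℕ) (hMS : ∀ q : ℕ, q.Prime → q ∣ M → q ∈ (↑S : Set ℕ))
    (chig : CuspForm.heckeAlgebra M 2 (↑S : Set ℕ) →+* ℂ)
    (hchig : ∀ (ℓ : ℕ) (hℓ : ℓ.Prime) (hℓM : ¬ ℓ ∣ M) (hℓS : ℓ ∉ (↑S : Set ℕ)),
      chig (CuspForm.heckeAlgebra.T hℓ hℓM hℓS) = qCoeff g ℓ) :
    ∃ t : GoodPoly (↑S : Set ℕ),
      goodEval M' (fun q hq h => hMS q hq (h.trans hdvd)) t = 0 ∧
        chig (goodEval M hMS t) ≠ 0 := by
  by_contra hcon
  have hker : RingHom.ker (goodEval M' fun q hq h => hMS q hq (h.trans hdvd)) ≤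
      RingHom.ker (chig.comp (goodEval M hMS)) := fun t ht => by
    by_contra h
    exact hcon ⟨t, ht, h⟩
  obtain ⟨h, hh, hT, -⟩ := Eigen.exists_eigenform_qCoeff_of_ringHom hint
    (RingHom.liftOfSurjective _ (goodEval_surjective M' fun q hq h => hMS q hq (h.trans hdvd))
      ⟨chig.comp (goodEval M hMS), hker⟩)
  refine Newform.false_of_agree_cofinite hg hdvd hne hh S fun ℓ hℓ hℓS hℓM => ?_
  rw [hT ℓ hℓ (fun hd => hℓM (hd.trans hdvd)) (by simpa using hℓS),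
    ← goodEval_X M' (fun q hq h => hMS q hq (h.trans hdvd)) ⟨ℓ, hℓ, by simpa using hℓS⟩,
    RingHom.liftOfRightInverse_comp_apply, RingHom.comp_apply, goodEval_X, hchig]

end Fermat.Agent.NewformRep

end
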