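/-
Representations of newforms: transport of Galois-equivariant maps between torsion frames.
-/
import Fermat.Agent.GaloisAdic.Main
import Fermat.Agent.Galois.Frobenius
import Fermat.Agent.NewformRep.HeckeSide

set_option autoImplicit false

noncomputable section

open ModularCurve
open scoped Matrix

namespace Fermat.Agent.NewformRep

open GaloisAdic

local notation "ℚbar" => AlgebraicClosure ℚ
local notation "Γℚ" => AlgebraicClosure ℚ ≃ₐ[ℚ] AlgebraicClosure ℚ

variable {N N' : ℕ} [NeZero N] [NeZero N'] {p : ℕ} [Fact p.Prime]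

omit [Fact p.Prime] in
/-- A Galois-equivariant map between Jacobians intertwines `T_ℓ` on `p`-power torsion, as the
Frobenius elements satisfy their quadratic relations on both sides. -/
theorem map_heckeOperatorBar (hF : TorsionFacts N p) (hF' : TorsionFacts N' p)
    (φ : JZero N →+ JZero N') (hφ : ∀ (σ : Γℚ) (x : JZero N), φ (σ • x) = σ • φ x)
    (ℓ : Nat.Primes) (hℓN : ¬ (ℓ : ℕ) ∣ N) (hℓN' : ¬ (ℓ : ℕ) ∣ N') (hℓp : (ℓ : ℕ) ≠ p)
    (n : ℕ) (x : JZero N) (hx : p ^ n • x = 0) :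
    φ (heckeOperatorBar N ℓ x) = heckeOperatorBar N' ℓ (φ x) := by
  obtain ⟨A, τ, hA, hτ⟩ := Galois.exists_valuationSubring_isFrobeniusAt ℓ.2
  set y : JZero N := τ⁻¹ • x with hy
  have hy0 : p ^ n • y = 0 := by
    rw [hy, ← gal_nsmul, hx]
    exact (DistribSMul.toAddMonoidHom (JZero N) τ⁻¹).map_zero
  have h1 := congrArg φ (hF.frobenius ℓ hℓN hℓp A hA τ hτ n y hy0)
  rw [map_add, map_sub, map_nsmul, map_zero, hφ, hφ] at h1
  have h2 := hF'.frobenius ℓ hℓN' hℓp A hA τ hτ n (φ y) (by rw [← map_nsmul, hy0, map_zero])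
  have h3 : φ (heckeOperatorBar N ℓ (τ • y)) = heckeOperatorBar N' ℓ (τ • φ y) := by
    have h4 := h1.trans h2.symm
    rw [add_left_inj, sub_right_inj] at h4
    exact h4
  rwa [← hφ, hy, smul_inv_smul] at h3

/-- The integer matrix of a Hecke element, modulo `p ^ n`. -/
def heckeMod (F : TorsionFrame N p) (n : ℕ) :
    CuspForm.heckeAlgebra N 2 (∅ : Set ℕ) →+* Matrix (Fin F.H.r) (Fin F.H.r) (ZMod (p ^ n)) :=
  (Int.castRingHom (ZMod (p ^ n))).mapMatrix.comp F.H.mat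

theorem map_heckeMatrix (F : TorsionFrame N p) (n : ℕ)
    (t : CuspForm.heckeAlgebra N 2 (∅ : Set ℕ)) :
    (F.heckeMatrix t).map (PadicInt.toZModPow n) = heckeMod F n t := by
  ext i j
  simp [TorsionFrame.heckeMatrix, heckeMod]

omit [Fact p.Prime] in
theorem e_heckeMod_gen (F : TorsionFrame N p) (n : ℕ) (ℓ : Nat.Primes)
    (v : Fin F.H.r → ZMod (p ^ n)) :
    F.e n (heckeMod F n (heckeGenAt N ℓ) *ᵥ v) = heckeOperatorBar N ℓ (F.e n v) :=
  ((F.isTorsionIso n).hecke ℓ v).symm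

variable {S : Set ℕ}

/-- An equivariant map carries a good polynomial at level `N` to the same polynomial at level
`N'`. -/
theorem exists_map_goodEval (F : TorsionFrame N p) (F' : TorsionFrame N' p)
    (hF : TorsionFacts N p) (hF' : TorsionFacts N' p)
    (hS : ∀ q : ℕ, q.Prime → q ∣ N → q ∈ S) (hS' : ∀ q : ℕ, q.Prime → q ∣ N' → q ∈ S)
    (hpS : p ∈ S) (φ : JZero N →+ JZero N')
    (hφ : ∀ (σ : Γℚ) (x : JZero N), φ (σ • x) = σ • φ x) (n : ℕ) (t : GoodPoly S) :
    ∀ (v : Fin F.H.r → ZMod (p ^ n)) (w : Fin F'.H.r → ZMod (p ^ n)), φ (F.e n v) = F'.e n w →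
      φ (F.e n (heckeMod F n (goodEvalFull N hS t) *ᵥ v)) =
        F'.e n (heckeMod F' n (goodEvalFull N' hS' t) *ᵥ w) := by
  induction t using MvPolynomial.induction_on with
  | C a =>
    intro v w hvw
    simp only [eq_intCast, map_intCast, Matrix.intCast_mulVec]
    rw [show ((a : ZMod (p ^ n)) • v) = a • v from Int.cast_smul_eq_zsmul _ a v,
      show ((a : ZMod (p ^ n)) • w) = a • w from Int.cast_smul_eq_zsmul _ a w,
      map_zsmul, map_zsmul, map_zsmul, hvw]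
  | add a b ha hb =>
    intro v w hvw
    simp only [map_add, Matrix.add_mulVec, ha v w hvw, hb v w hvw]
  | mul_X a ℓ ha =>
    intro v w hvw
    simp only [map_mul, ← Matrix.mulVec_mulVec, goodEvalFull_X]
    refine ha _ _ ?_
    exact (congrArg φ (e_heckeMod_gen F n ⟨ℓ, ℓ.2.1⟩ v)).trans
      ((map_heckeOperatorBar hF hF' φ hφ _ (fun h => ℓ.2.2 (hS ℓ ℓ.2.1 h))
        (fun h => ℓ.2.2 (hS' ℓ ℓ.2.1 h))
        (fun h => ℓ.2.2 (by rw [show (ℓ : ℕ) = p from h]; exact hpS))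
        n _ (((F.isTorsionIso n).mem_range_iff _).1 ⟨v, rfl⟩)).trans
      ((congrArg _ hvw).trans (e_heckeMod_gen F' n ⟨ℓ, ℓ.2.1⟩ w).symm))

/-- A good polynomial vanishing at level `N'` moves all torsion into the kernel of an equivariant
map. -/
theorem map_goodEval_eq_zero (F : TorsionFrame N p) (F' : TorsionFrame N' p)
    (hF : TorsionFacts N p) (hF' : TorsionFacts N' p)
    (hS : ∀ q : ℕ, q.Prime → q ∣ N → q ∈ S) (hS' : ∀ q : ℕ, q.Prime → q ∣ N' → q ∈ S)
    (hpS : p ∈ S) (φ : JZero N →+ JZero N')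
    (hφ : ∀ (σ : Γℚ) (x : JZero N), φ (σ • x) = σ • φ x) {t : GoodPoly S}
    (ht : goodEval N' hS' t = 0) (n : ℕ) (v : Fin F.H.r → ZMod (p ^ n)) :
    φ (F.e n (heckeMod F n (goodEvalFull N hS t) *ᵥ v)) = 0 := by
  obtain ⟨w, hw⟩ : φ (F.e n v) ∈ Set.range (F'.e n) := ((F'.isTorsionIso n).mem_range_iff _).2 (by
    rw [← map_nsmul, ((F.isTorsionIso n).mem_range_iff _).1 ⟨v, rfl⟩, map_zero])
  rw [exists_map_goodEval F F' hF hF' hS hS' hpS φ hφ n t v w hw.symm, goodEvalFull,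
    RingHom.comp_apply, ht, map_zero, map_zero, Matrix.zero_mulVec, map_zero]

end Fermat.Agent.NewformRep

end
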