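/-
Representations of newforms: the representation of a newform at a prime exactly dividing the level.
-/
import Fermat.Agent.NewformRep.Approx
import Fermat.Agent.NewformRep.Geometry
import Fermat.Agent.NewformRep.Transport
import Fermat.Agent.GaloisAdic.Inputs

set_option autoImplicit false

noncomputable section

open scoped Matrix
open Polynomial ModularCurve

namespace Fermat.Agent.NewformRep

open GaloisAdic

local notation "ℚbar" => AlgebraicClosure ℚ
local notation "Γℚ" => AlgebraicClosure ℚ ≃ₐ[ℚ] AlgebraicClosure ℚ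

/-- A ring homomorphism from a domain finite over `ℤ` to a domain of characteristic zero is
injective. -/
theorem injective_of_integral {R O : Type*} [CommRing R] [IsDomain R] [Algebra.IsIntegral ℤ R]
    [CommRing O] [IsDomain O] [CharZero O] (f : R →+* O) : Function.Injective f := by
  rw [RingHom.injective_iff_ker_eq_bot]
  refine Ideal.eq_bot_of_comap_eq_bot (R := ℤ) ?_
  rw [eq_bot_iff]
  intro a ha
  rw [Ideal.mem_comap, RingHom.mem_ker] at ha
  simpa using ha

section Relation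

variable {N : ℕ} [NeZero N] {p : ℕ} [Fact p.Prime]

/-- The Galois and Hecke matrices annihilate whatever they annihilate on torsion. -/
theorem galMatrix_relation (F : TorsionFrame N p) (q : ℕ) (σ : Γℚ)
    (t : CuspForm.heckeAlgebra N 2 (∅ : Set ℕ))
    (h : ∀ (n : ℕ) (v : Fin F.H.r → ZMod (p ^ n)),
      let x := F.e n (heckeMod F n t *ᵥ v)
      σ • σ • (σ • σ • x - x) = q ^ 2 • (σ • σ • x - x)) :
    (F.galMatrix σ * F.galMatrix σ - (q : Matrix _ _ ℤ_[p]) * (q : Matrix _ _ ℤ_[p])) *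
      (F.galMatrix σ * F.galMatrix σ - 1) * F.heckeMatrix t = 0 := by
  refine TorsionFrame.padicMatrix_ext fun n => matrix_eq_of_forall_mulVec fun v => ?_
  apply (F.isTorsionIso n).injective
  have hh := h n v
  dsimp only at hh
  simp only [← RingHom.mapMatrix_apply, map_mul, map_sub, map_one, map_natCast, map_zero]
  simp only [RingHom.mapMatrix_apply, F.map_galMatrix, map_heckeMatrix]
  rw [Matrix.zero_mulVec, map_zero]
  simp only [← Matrix.mulVec_mulVec, Matrix.sub_mulVec, Matrix.one_mulVec, Matrix.natCast_mulVec,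
    Matrix.mulVec_sub, map_sub, F.e_galMatrixMod,
    show ∀ u : Fin F.H.r → ZMod (p ^ n), ((q : ℕ) : ZMod (p ^ n)) • u = (q : ℕ) • u from
      fun u => Nat.cast_smul_eq_nsmul _ _ _, map_nsmul]
  simp only [smul_sub, sq, mul_smul, nsmul_sub] at hh
  rw [← sub_eq_zero] at hh
  refine Eq.trans ?_ hh
  abel

end Relation

/-- At a prime `q` exactly dividing the level the Frobenius trace is `± (q + 1)`. -/
theorem trace_frobenius_eq (M' q : ℕ) [NeZero M'] [NeZero q] (hq : q.Prime) (hqM : ¬ q ∣ M')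
    (hint : CuspForm.HasIntegralStructure M' 2)
    (hint₁ : CuspForm.HasIntegralStructure (M' * q) 2)
    {g : CuspForm (CongruenceSubgroup.Gamma0 (M' * q)) 2} (hg : g.IsNewform)
    (p : ℕ) [Fact p.Prime] (hqp : q ≠ p) (S : Finset ℕ) (hpS : p ∈ S)
    (hMS : ∀ r : ℕ, r.Prime → r ∣ M' * q → r ∈ (↑S : Set ℕ))
    (F : TorsionFrame (M' * q) p) (hF : TorsionFacts (M' * q) p)
    (chig : CuspForm.heckeAlgebra (M' * q) 2 (↑S : Set ℕ) →+* ℂ)
    (hchig : ∀ (ℓ : ℕ) (hℓ : ℓ.Prime) (hℓM : ¬ ℓ ∣ M' * q) (hℓS : ℓ ∉ (↑S : Set ℕ)),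
      chig (CuspForm.heckeAlgebra.T hℓ hℓM hℓS) = ModularFormClass.qCoeff g ℓ)
    {O : Type} [CommRing O] [IsDomain O] [IsDiscreteValuationRing O]
    [IsAdicComplete (IsLocalRing.maximalIdeal O) O] [CharZero O]
    (hp : (p : O) ∈ IsLocalRing.maximalIdeal O) (iota : chig.range →+* O) (ρ : GaloisRepAdic O)
    (hchar : ∀ (ℓ : ℕ) (hℓ : ℓ.Prime) (hℓN : ¬ ℓ ∣ M' * q) (hℓS : ℓ ∉ (↑S : Set ℕ)), ℓ ≠ p →
      ∀ A : ValuationSubring ℚbar, A.LiesOverPrime ℓ → ∀ σ : Γℚ, A.IsFrobeniusAt σ ℓ →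
        LinearMap.charpoly (ρ.ρ σ) =
          X ^ 2 - C (iota (chig.rangeRestrict (CuspForm.heckeAlgebra.T hℓ hℓN hℓS))) * X
            + C ((ℓ : O)))
    (hdet : ∀ σ : Γℚ, LinearMap.det (ρ.ρ σ) = padicIntHom O hp (padicCyclo p σ))
    (A : ValuationSubring ℚbar) (hA : A.LiesOverPrime q) (σ : Γℚ) (hσ : A.IsFrobeniusAt σ q) :
    LinearMap.charpoly (ρ.ρ σ) = X ^ 2 - C ((q : O) + 1) * X + C ((q : O)) ∨
      LinearMap.charpoly (ρ.ρ σ) = X ^ 2 + C ((q : O) + 1) * X + C ((q : O)) := by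
  classical
  have hMS' : ∀ r : ℕ, r.Prime → r ∣ M' → r ∈ (↑S : Set ℕ) :=
    fun r hr h => hMS r hr (h.trans (dvd_mul_right M' q))
  have hne : M' ≠ M' * q := fun h => hq.one_lt.ne
    (mul_left_cancel₀ (NeZero.ne M') ((mul_one M').trans h))
  obtain ⟨t, ht0, htg⟩ := exists_goodPoly hint hg (dvd_mul_right M' q) hne S hMS chig hchig
  obtain ⟨F'⟩ := nonempty_torsionFrame M' p
  have hF' := torsionFacts M' p
  set χ : CuspForm.heckeAlgebra (M' * q) 2 (↑S : Set ℕ) →+* O := iota.comp chig.rangeRestrict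
  set a : O := χ (goodEval (M' * q) hMS t) with ha
  have ha0 : a ≠ 0 := by
    have := Eigen.heckeAlgebra_moduleFinite hint₁ (↑S : Set ℕ)
    have : Algebra.IsIntegral ℤ chig.range := ⟨fun x => by
      obtain ⟨y, hy⟩ := chig.rangeRestrict_surjective x
      exact hy ▸ map_isIntegral_int chig.rangeRestrict (Algebra.IsIntegral.isIntegral y)⟩
    rw [ha]
    show iota (chig.rangeRestrict (goodEval (M' * q) hMS t)) ≠ 0
    rw [map_ne_zero_iff _ (injective_of_integral iota)]
    exact fun h => htg (congrArg Subtype.val h)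
  -- the relation on the image of the Hecke element
  set tf := goodEvalFull (M' * q) hMS t with htf
  have hrel : (F.galMatrix σ * F.galMatrix σ - (q : Matrix _ _ ℤ_[p]) * (q : Matrix _ _ ℤ_[p])) *
      (F.galMatrix σ * F.galMatrix σ - 1) * F.heckeMatrix tf = 0 :=
    galMatrix_relation F q σ tf fun n v => frobenius_relation M' q hq hqM A hA σ hσ (p ^ n)
      (fun h => hqp ((Nat.prime_dvd_prime_iff_eq hq (Fact.out (p := p.Prime))).1
        (hq.dvd_of_dvd_pow h)))
      _ (((F.isTorsionIso n).mem_range_iff _).1 ⟨_, rfl⟩)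
      (map_goodEval_eq_zero F F' hF hF' hMS hMS' (by simpa using hpS) _
        (pushAlpha_galois_smul M' q) ht0 n v)
      (map_goodEval_eq_zero F F' hF hF' hMS hMS' (by simpa using hpS) _
        (pushBeta_galois_smul M' q) ht0 n v)
  -- move it to the eigenlattice
  obtain ⟨k, hk, Y, Z, ρ₀, hZY, hRY, hρ₀, hcol⟩ := exists_eigenRep F hF (↑S : Set ℕ) O hp χ
  set G := (F.galMatrix σ).map (padicIntHom O hp) with hG
  have hcolt : (F.heckeMatrix tf).map (padicIntHom O hp) * Y = a • Y := by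
    rw [ha, ← hcol, htf, goodEvalFull]
    congr 1
    ext i j
    simp [TorsionFrame.heckeMatrix]
  have hP : (ρ₀ σ * ρ₀ σ - ((q : O) * q) • (1 : Matrix (Fin k) (Fin k) O)) *
      (ρ₀ σ * ρ₀ σ - 1) = 0 := by
    have h1 := congrArg (fun M : Matrix _ _ ℤ_[p] => (padicIntHom O hp).mapMatrix M * Y) hrel
    simp only [map_mul, map_sub, map_one, map_natCast, map_zero, Matrix.zero_mul] at h1
    simp only [RingHom.mapMatrix_apply, ← hG] at h1
    have hsq : G * G * Y = Y * (ρ₀ σ * ρ₀ σ) := by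
      rw [Matrix.mul_assoc, hG, hRY, ← Matrix.mul_assoc, hRY, Matrix.mul_assoc]
    have hq2 : ∀ {r : ℕ}, ((q : Matrix (Fin r) (Fin r) O) * (q : Matrix (Fin r) (Fin r) O)) =
        ((q : O) * q) • (1 : Matrix (Fin r) (Fin r) O) := fun {r} => by
      rw [← Nat.cast_mul, ← Matrix.diagonal_natCast, ← Matrix.diagonal_one, ← Matrix.diagonal_smul]
      congr 1
      funext i
      simp
    rw [hq2, Matrix.mul_assoc, hcolt, Matrix.mul_assoc] at h1
    have hstep : (G * G - 1) * (a • Y) = Y * (a • (ρ₀ σ * ρ₀ σ - 1)) := by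
      rw [Matrix.mul_smul, Matrix.sub_mul, hsq, Matrix.one_mul, Matrix.mul_smul, Matrix.mul_sub,
        Matrix.mul_one]
    rw [hstep, ← Matrix.mul_assoc, Matrix.sub_mul, hsq, Matrix.smul_mul, Matrix.one_mul,
      ← Matrix.mul_one (((q : O) * q) • Y), Matrix.smul_mul, ← Matrix.mul_smul,
      ← Matrix.mul_sub, Matrix.mul_assoc] at h1
    have h2 := congrArg (fun M => Z * M) h1
    simp only [← Matrix.mul_assoc, hZY, Matrix.one_mul, Matrix.mul_zero, Matrix.mul_smul] at h2
    exact (smul_eq_zero.1 h2).resolve_left ha0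
  obtain ⟨i⟩ : Nonempty (Fin k) := ⟨0⟩
  have hdetσ : (repMatrix ρ σ).det = (q : O) := by
    rw [det_repMatrix, hdet, padicCyclo_frobenius p hq hqp hA hσ, map_natCast]
  have hquad := eigenRep_rowQuad F hF S (fun ℓ _ h => by simpa using h) hp hZY ρ₀ hρ₀ hRY hcol ρ
    (fun ℓ hℓ hℓN hℓS hℓp => hchar ℓ hℓ hℓN hℓS hℓp) σ (Pi.single i 1)
  rw [hdetσ] at hquad
  have htr := hquad.trace_eq (fun h => by simpa using congrFun h i) (Nat.cast_ne_zero.2 hq.ne_zero)
    (by rw [Matrix.vecMul_vecMul, hP, Matrix.vecMul_zero])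
  have hcp : LinearMap.charpoly (ρ.ρ σ) = X ^ 2 - C (repMatrix ρ σ).trace * X + C (q : O) := by
    rw [← charpoly_repMatrix, Matrix.charpoly_fin_two, hdetσ]
  rcases htr with h | h
  · exact Or.inl (by rw [hcp, h])
  · exact Or.inr (by rw [hcp, h, map_neg, neg_mul, sub_neg_eq_add])

end Fermat.Agent.NewformRep

end
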