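/-
Representations of newforms: λ-adic representations of newforms with Frobenius at the primes
exactly dividing
the level.
-/
import Fermat.Agent.NewformRep.Core
import Fermat.Agent.Integral.Main

set_option autoImplicit false

noncomputable section

open Polynomial

namespace Fermat.Agent.NewformRep

open GaloisAdic

/-- The λ-adic representation of a newform, with the Frobenius characteristic polynomials at the
good primes and at the primes exactly dividing the level. -/
theorem exists_galoisRepAdic_newform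
    {M : ℕ} [NeZero M] {g : CuspForm (CongruenceSubgroup.Gamma0 M) 2} (hg : g.IsNewform)
    (lam : ℕ) [Fact lam.Prime]
    (S : Finset ℕ)
    (O' : Type) [CommRing O'] [IsDomain O'] [IsDiscreteValuationRing O']
    [IsAdicComplete (IsLocalRing.maximalIdeal O') O'] [Finite (IsLocalRing.ResidueField O')]
    [CharZero O'] (hlamO' : (lam : O') ∈ IsLocalRing.maximalIdeal O')
    (chig : CuspForm.heckeAlgebra M 2 (↑S : Set ℕ) →+* ℂ)
    (hchig : ∀ (ℓ : ℕ) (hℓ : ℓ.Prime) (hℓM : ¬ ℓ ∣ M) (hℓS : ℓ ∉ (↑S : Set ℕ)),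
      chig (CuspForm.heckeAlgebra.T hℓ hℓM hℓS) = ModularFormClass.qCoeff g ℓ)
    (iota : chig.range →+* O')
    (hlamS : lam ∈ S) (hMS : ∀ q : ℕ, q.Prime → q ∣ M → q ∈ S) :
    ∃ (O'' : Type) (_ : CommRing O'') (_ : IsDomain O'') (_ : IsDiscreteValuationRing O'')
      (_ : IsAdicComplete (IsLocalRing.maximalIdeal O'') O'')
      (_ : Finite (IsLocalRing.ResidueField O''))
      (_ : CharZero O'') (_ : Algebra O' O'') (_ : Module.Finite O' O'')
      (_ : IsLocalHom (algebraMap O' O'')),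
      Function.Injective (algebraMap O' O'') ∧
      ∃ ρ : GaloisRepAdic O'',
        (∀ (ℓ : ℕ) (hℓ : ℓ.Prime) (hℓM : ¬ ℓ ∣ M) (hℓS : ℓ ∉ (↑S : Set ℕ)),
          ∀ A : ValuationSubring (AlgebraicClosure ℚ), A.LiesOverPrime ℓ →
            ∀ σ : AlgebraicClosure ℚ ≃ₐ[ℚ] AlgebraicClosure ℚ, A.IsFrobeniusAt σ ℓ →
              LinearMap.charpoly (ρ.ρ σ) =
                X ^ 2 - C (algebraMap O' O'' ((iota.comp chig.rangeRestrict)
                    (CuspForm.heckeAlgebra.T hℓ hℓM hℓS))) * X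
                  + C ((ℓ : O''))) ∧
        (∀ q : ℕ, q.Prime → q ≠ lam → q ∣ M → ¬ q ^ 2 ∣ M →
          ∀ A : ValuationSubring (AlgebraicClosure ℚ), A.LiesOverPrime q →
            ∀ σ : AlgebraicClosure ℚ ≃ₐ[ℚ] AlgebraicClosure ℚ, A.IsFrobeniusAt σ q →
              LinearMap.charpoly (ρ.ρ σ) = X ^ 2 - C ((q : O'') + 1) * X + C ((q : O'')) ∨
              LinearMap.charpoly (ρ.ρ σ) = X ^ 2 + C ((q : O'') + 1) * X + C ((q : O''))) := by
  obtain ⟨F⟩ := nonempty_torsionFrame M lam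
  obtain ⟨O'', i1, i2, i3, i4, i5, i6, i7, i8, i9, hinj, hp'', ρ, hchar, -, hdet, -⟩ :=
    exists_galoisRepAdic F (torsionFacts M lam) (↑S : Set ℕ) S (fun ℓ _ h => by simpa using h)
      O' hlamO' (iota.comp chig.rangeRestrict)
  refine ⟨O'', i1, i2, i3, i4, i5, i6, i7, i8, i9, hinj, ρ,
    fun ℓ hℓ hℓM hℓS => hchar ℓ hℓ hℓM hℓS (fun h => hℓS (by simpa [h] using hlamS)), ?_⟩
  intro q hq hqlam hqM hq2 A hA σ hσ
  obtain ⟨M', hM'⟩ : ∃ M', M = M' * q := by
    obtain ⟨c, hc⟩ := hqM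
    exact ⟨c, hc.trans (mul_comm q c)⟩
  subst hM'
  have hM'0 : NeZero M' := ⟨fun h => NeZero.ne (M' * q) (by rw [h, zero_mul])⟩
  have hq0 : NeZero q := ⟨hq.ne_zero⟩
  exact trace_frobenius_eq M' q hq
    (fun h => hq2 (by rw [sq]; exact Nat.mul_dvd_mul_right h q))
    (Integral.hasIntegralStructure M' 2) (Integral.hasIntegralStructure (M' * q) 2) hg lam hqlam S
    hlamS (fun r hr h => by simpa using hMS r hr h) F (torsionFacts _ lam) chig hchig hp''
    ((algebraMap O' O'').comp iota) ρ hchar hdet A hA σ hσ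

end Fermat.Agent.NewformRep

end
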